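/-
Program B' (S34), package L4 = Step 1 of the chain of report #2200 (helper7): the glue lemmas.

Step 1 says: if `u` is a function whose divisor on the generic fibre is divisible by `m`, and `τ`
is an inertia element, then `τ u / u` satisfies the Cartier condition of `H10.Step2` at every
closed point `x` of the special fibre of a chart `C`:

  `∃ g ≠ 0, ∃ a b ∈ C ∖ x, (τ u / u) * b = a * g ^ m`.

This file contains the two lemmas of that step which do not depend on the type of the point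
(node, smooth point, point away from the support), in the valuation vocabulary of Program J
(`V : ValuationSubring F`):

* `exists_root_of_local_eqs` (L4b): if every horizontal valuation ring `V` at `x` at which `u`
  is not a unit has a local equation `f_V` (a uniformiser of `V` which is a unit at the other
  horizontal valuation rings at `x`), then there is `g` with `u / g ^ m` a unit at every
  horizontal valuation ring at `x`.
* `cartier_of_unit_family` (L4a): if `u / g ^ m` is a unit at every horizontal valuation ring of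
  a family `𝒱` having the Krull property at `x` (an element lying in all `V ∈ 𝒱` is a fraction
  `a / b` with `b ∉ x`), `τ` permutes the horizontal members of `𝒱` and preserves the valuation
  of the vertical ones, then `τ u / u = (a / b) * (τ g / g) ^ m` with `a, b ∈ C ∖ x`.
* `cartier_at_point`: the composition, in the exact shape of the hypotheses `hcart₁`, `hcart₂` of
  `Fermat.Agent.S34.H10.exists_pow_mul_mem_of_cartier`.

Suppliers: `isU_map_div_self` (an automorphism preserving a discrete valuation ring preserves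
its valuation) and `exists_zpow_isU_of_generator` (a generator of the maximal ideal of a discrete
valuation ring is a uniformiser in the sense used here).

Mathlib only.
-/
import Mathlib

set_option autoImplicit false

namespace Fermat.Agent.S34.H7

variable {F : Type*} [Field F]

/-- `y` is a unit of the valuation subring `V`: both `y` and `y⁻¹` lie in `V`. -/
def IsU (V : ValuationSubring F) (y : F) : Prop := y ∈ V ∧ y⁻¹ ∈ V

theorem isU_iff (V : ValuationSubring F) (y : F) : IsU V y ↔ y ∈ V ∧ y⁻¹ ∈ V := Iff.rfl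

theorem isU_one (V : ValuationSubring F) : IsU V 1 :=
  ⟨V.one_mem, by rw [inv_one]; exact V.one_mem⟩

theorem IsU.mul {V : ValuationSubring F} {a b : F} (ha : IsU V a) (hb : IsU V b) :
    IsU V (a * b) :=
  ⟨V.mul_mem _ _ ha.1 hb.1, by rw [mul_inv]; exact V.mul_mem _ _ ha.2 hb.2⟩

theorem IsU.inv {V : ValuationSubring F} {a : F} (ha : IsU V a) : IsU V a⁻¹ :=
  ⟨ha.2, by rw [inv_inv]; exact ha.1⟩

theorem IsU.div {V : ValuationSubring F} {a b : F} (ha : IsU V a) (hb : IsU V b) :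
    IsU V (a / b) := by
  rw [div_eq_mul_inv]
  exact ha.mul hb.inv

theorem IsU.pow {V : ValuationSubring F} {a : F} (ha : IsU V a) (n : ℕ) : IsU V (a ^ n) :=
  ⟨pow_mem ha.1 n, by rw [← inv_pow]; exact pow_mem ha.2 n⟩

theorem IsU.zpow {V : ValuationSubring F} {a : F} (ha : IsU V a) (n : ℤ) : IsU V (a ^ n) := by
  cases n with
  | ofNat k =>
    rw [Int.ofNat_eq_natCast, zpow_natCast]
    exact ha.pow k
  | negSucc k =>
    rw [zpow_negSucc]
    exact (ha.pow (k + 1)).inv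

theorem IsU.prod {V : ValuationSubring F} {ι : Type*} (s : Finset ι) (f : ι → F)
    (h : ∀ i ∈ s, IsU V (f i)) : IsU V (∏ i ∈ s, f i) := by
  classical
  induction s using Finset.induction_on with
  | empty =>
    rw [Finset.prod_empty]
    exact isU_one V
  | insert a s ha ih =>
    rw [Finset.prod_insert ha]
    exact (h _ (Finset.mem_insert_self _ _)).mul
      (ih fun i hi => h i (Finset.mem_insert_of_mem hi))

/-! ### Discrete valuation rings -/

section DVR

variable (V : ValuationSubring F)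

theorem isU_coe_unit (e : (↥V)ˣ) : IsU V ((e : ↥V) : F) := by
  refine ⟨(e : ↥V).2, ?_⟩
  have h : ((e : ↥V) : F) * (((e⁻¹ : (↥V)ˣ) : ↥V) : F) = 1 := by
    have h1 : ((e : ↥V) * ((e⁻¹ : (↥V)ˣ) : ↥V) : ↥V) = 1 := Units.mul_inv e
    have h2 := congrArg (Subtype.val : ↥V → F) h1
    exact h2
  rw [inv_eq_of_mul_eq_one_right h]
  exact (((e⁻¹ : (↥V)ˣ) : ↥V)).2

theorem isUnit_of_isU (a : ↥V) (h0 : (a : F) ≠ 0) (h : IsU V (a : F)) : IsUnit a := by
  refine isUnit_iff_exists_inv.mpr ⟨⟨(a : F)⁻¹, h.2⟩, ?_⟩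
  apply Subtype.ext
  exact mul_inv_cancel₀ h0

/-- In a discrete valuation ring every nonzero element of the fraction field is a unit times an
integral power of a fixed irreducible element. -/
theorem exists_zpow_isU_irreducible [IsDiscreteValuationRing V] (p : ↥V) (hp : Irreducible p)
    (y : F) (hy : y ≠ 0) : ∃ n : ℤ, IsU V (y / (p : F) ^ n) := by
  have hp0 : (p : F) ≠ 0 := fun h => hp.ne_zero (Subtype.ext h)
  have key : ∀ z : F, z ≠ 0 → z ∈ V → ∃ n : ℕ, IsU V (z / (p : F) ^ n) := by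
    intro z hz hzV
    have hz' : (⟨z, hzV⟩ : ↥V) ≠ 0 := fun h => hz (congrArg Subtype.val h)
    obtain ⟨n, e, he⟩ := IsDiscreteValuationRing.eq_unit_mul_pow_irreducible hz' hp
    refine ⟨n, ?_⟩
    have he' : z = ((e : ↥V) : F) * (p : F) ^ n := by
      have := congrArg (Subtype.val : ↥V → F) he
      simpa using this
    have : z / (p : F) ^ n = ((e : ↥V) : F) := by
      rw [he', mul_div_assoc, div_self (pow_ne_zero n hp0), mul_one]
    rw [this]
    exact isU_coe_unit V e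
  rcases V.mem_or_inv_mem y with h | h
  · obtain ⟨n, hn⟩ := key y hy h
    exact ⟨n, by rw [zpow_natCast]; exact hn⟩
  · obtain ⟨n, hn⟩ := key y⁻¹ (inv_ne_zero hy) h
    refine ⟨-(n : ℤ), ?_⟩
    have : y / (p : F) ^ (-(n : ℤ)) = (y⁻¹ / (p : F) ^ n)⁻¹ := by
      rw [zpow_neg, zpow_natCast, inv_div, div_eq_mul_inv, inv_inv, div_eq_mul_inv, inv_inv,
        mul_comm]
    rw [this]
    exact hn.inv

/-- A generator of the maximal ideal of a discrete valuation ring is a uniformiser: every nonzero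
element is a unit times an integral power of it. -/
theorem exists_zpow_isU_of_generator [IsDiscreteValuationRing V] (f : F) (hf0 : f ≠ 0)
    (hf : f ∈ V.nonunits) (hgen : ∀ y ∈ V.nonunits, y / f ∈ V) (y : F) (hy : y ≠ 0) :
    ∃ n : ℤ, IsU V (y / f ^ n) := by
  obtain ⟨p, hp⟩ := IsDiscreteValuationRing.exists_irreducible ↥V
  have hp0 : (p : F) ≠ 0 := fun h => hp.ne_zero (Subtype.ext h)
  have hpm : (p : F) ∈ V.nonunits := by
    rw [ValuationSubring.coe_mem_nonunits_iff, hp.maximalIdeal_eq]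
    exact Ideal.mem_span_singleton_self p
  have hfV : f ∈ V := ValuationSubring.nonunits_subset hf
  have hfm : (⟨f, hfV⟩ : ↥V) ∈ IsLocalRing.maximalIdeal ↥V :=
    ValuationSubring.coe_mem_nonunits_iff.mp hf
  rw [hp.maximalIdeal_eq, Ideal.mem_span_singleton] at hfm
  obtain ⟨c, hc⟩ := hfm
  have hc' : f = (p : F) * (c : F) := by
    have := congrArg (Subtype.val : ↥V → F) hc
    simpa using this
  have hc0 : (c : F) ≠ 0 := by
    intro h
    rw [h, mul_zero] at hc'
    exact hf0 hc'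
  have hcU : IsU V (c : F) := by
    refine ⟨c.2, ?_⟩
    have h1 := hgen (p : F) hpm
    have : (p : F) / f = (c : F)⁻¹ := by
      rw [hc', div_mul_eq_div_div, div_self hp0, one_div]
    rwa [this] at h1
  have hfp : IsU V (f / (p : F)) := by
    have : f / (p : F) = (c : F) := by
      rw [hc', mul_comm, mul_div_assoc, div_self hp0, mul_one]
    rw [this]
    exact hcU
  obtain ⟨n, hn⟩ := exists_zpow_isU_irreducible V p hp y hy
  refine ⟨n, ?_⟩
  have : y / f ^ n = y / (p : F) ^ n * ((f / (p : F)) ^ n)⁻¹ := by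
    rw [div_zpow, inv_div, div_mul_div_comm, mul_comm (y) _, mul_div_mul_left]
    exact zpow_ne_zero n hp0
  rw [this]
  exact hn.mul (hfp.zpow n).inv

/-- A ring automorphism of `F` which preserves a discrete valuation ring `V` preserves its
valuation: `τ y / y` is a unit of `V` for every `y ≠ 0`. -/
theorem isU_map_div_self [IsDiscreteValuationRing V] (τ : F ≃+* F)
    (hτ : ∀ y : F, y ∈ V ↔ τ y ∈ V) (y : F) (hy : y ≠ 0) : IsU V (τ y / y) := by
  obtain ⟨p, hp⟩ := IsDiscreteValuationRing.exists_irreducible ↥V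
  have hp0 : (p : F) ≠ 0 := fun h => hp.ne_zero (Subtype.ext h)
  have hτU : ∀ z : F, IsU V z → IsU V (τ z) := fun z hz =>
    ⟨(hτ z).mp hz.1, by rw [← map_inv₀]; exact (hτ _).mp hz.2⟩
  have hτU' : ∀ z : F, IsU V (τ z) → IsU V z := fun z hz =>
    ⟨(hτ z).mpr hz.1, (hτ _).mpr (by rw [map_inv₀]; exact hz.2)⟩
  have hpnU : ¬ IsU V (p : F) := fun h => hp.not_isUnit (isUnit_of_isU V p hp0 h)
  -- a non-unit of `V` is divisible by `p`
  have hdvd : ∀ z : F, z ∈ V → ¬ IsU V z → ∃ c : F, c ∈ V ∧ z = (p : F) * c := by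
    intro z hzV hzU
    have hzm : (⟨z, hzV⟩ : ↥V) ∈ IsLocalRing.maximalIdeal ↥V := by
      rw [IsLocalRing.mem_maximalIdeal, mem_nonunits_iff]
      intro hunit
      obtain ⟨e, he⟩ := hunit
      apply hzU
      have := isU_coe_unit V e
      rwa [he] at this
    rw [hp.maximalIdeal_eq, Ideal.mem_span_singleton] at hzm
    obtain ⟨c, hc⟩ := hzm
    refine ⟨(c : F), c.2, ?_⟩
    have := congrArg (Subtype.val : ↥V → F) hc
    simpa using this
  -- `τ p / p` is a unit
  have hpU : IsU V (τ (p : F) / (p : F)) := by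
    obtain ⟨c, hcV, hc⟩ := hdvd (τ (p : F)) ((hτ _).mp p.2) (fun h => hpnU (hτU' _ h))
    have hsymm : τ.symm (p : F) ∈ V := (hτ _).mpr (by rw [RingEquiv.apply_symm_apply]; exact p.2)
    obtain ⟨d, hdV, hd⟩ := hdvd (τ.symm (p : F)) hsymm (fun h => hpnU (by
      have := hτU _ h
      rwa [RingEquiv.apply_symm_apply] at this))
    have h1 : (p : F) = τ (p : F) * τ d := by
      have := congrArg τ hd
      rwa [RingEquiv.apply_symm_apply, map_mul] at this
    have hτp0 : τ (p : F) ≠ 0 := (map_ne_zero τ).mpr hp0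
    refine ⟨?_, ?_⟩
    · have : τ (p : F) / (p : F) = c := by
        rw [hc, mul_comm, mul_div_assoc, div_self hp0, mul_one]
      rw [this]
      exact hcV
    · have : (τ (p : F) / (p : F))⁻¹ = τ d := by
        rw [inv_div]
        nth_rewrite 1 [h1]
        rw [mul_comm, mul_div_assoc, div_self hτp0, mul_one]
      rw [this]
      exact (hτ d).mp hdV
  obtain ⟨n, hn⟩ := exists_zpow_isU_irreducible V p hp y hy
  -- `y = ε p ^ n`
  have hpn0 : (p : F) ^ n ≠ 0 := zpow_ne_zero n hp0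
  have hτpn0 : τ ((p : F) ^ n) ≠ 0 := (map_ne_zero τ).mpr hpn0
  have e : τ y / y = τ (y / (p : F) ^ n) / (y / (p : F) ^ n) * (τ (p : F) / (p : F)) ^ n := by
    rw [map_div₀, div_zpow, map_zpow₀]
    have h1 : τ (p : F) ^ n ≠ 0 := zpow_ne_zero n ((map_ne_zero τ).mpr hp0)
    field_simp
  rw [e]
  exact ((hτU _ hn).div hn).mul (hpU.zpow n)

end DVR

/-! ### The two glue lemmas -/

/-- **(L4b) The local root.**  `𝒱h` a family of valuation rings of `F` (the horizontal valuation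
rings at a closed point), `u ≠ 0` a function whose order at every `V ∈ 𝒱h` is divisible by `m`
(`hdiv`), with finitely many zeros and poles in `𝒱h` (`hfin`), each of which has a local equation
`f`: a uniformiser of `V` which is a unit at every other member of `𝒱h` (`hloc`).  Then there is
`g ≠ 0` with `u / g ^ m` a unit at every `V ∈ 𝒱h`. -/
theorem exists_root_of_local_eqs (𝒱h : Set (ValuationSubring F)) (m : ℕ) (u : F)
    (hdiv : ∀ V ∈ 𝒱h, ∃ t : F, t ≠ 0 ∧ IsU V (u / t ^ m))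
    (hfin : {V : ValuationSubring F | V ∈ 𝒱h ∧ ¬ IsU V u}.Finite)
    (hloc : ∀ V ∈ 𝒱h, ¬ IsU V u → ∃ f : F, f ≠ 0 ∧
      (∀ y : F, y ≠ 0 → ∃ n : ℤ, IsU V (y / f ^ n)) ∧ ∀ V' ∈ 𝒱h, V' ≠ V → IsU V' f) :
    ∃ g : F, g ≠ 0 ∧ ∀ V ∈ 𝒱h, IsU V (u / g ^ m) := by
  classical
  have key : ∀ V : ValuationSubring F, ∃ f : F, ∃ n : ℤ, f ≠ 0 ∧ ((V ∈ 𝒱h ∧ ¬ IsU V u) →
      IsU V (u / (f ^ n) ^ m) ∧ ∀ V' ∈ 𝒱h, V' ≠ V → IsU V' f) := by
    intro V
    by_cases hV : V ∈ 𝒱h ∧ ¬ IsU V u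
    · obtain ⟨f, hf0, hunif, hother⟩ := hloc V hV.1 hV.2
      obtain ⟨t, ht0, ht⟩ := hdiv V hV.1
      obtain ⟨n, hn⟩ := hunif t ht0
      refine ⟨f, n, hf0, fun _ => ⟨?_, hother⟩⟩
      have hfn : f ^ n ≠ 0 := zpow_ne_zero n hf0
      have e : u / (f ^ n) ^ m = (u / t ^ m) * (t / f ^ n) ^ m := by
        rw [div_pow, div_mul_div_comm, mul_comm u, mul_div_mul_left _ _ (pow_ne_zero m ht0)]
      rw [e]
      exact ht.mul (hn.pow m)
    · exact ⟨1, 0, one_ne_zero, fun h => absurd h hV⟩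
  choose f n hf0 hfn using key
  refine ⟨∏ V ∈ hfin.toFinset, f V ^ n V, ?_, ?_⟩
  · exact Finset.prod_ne_zero_iff.mpr fun V _ => zpow_ne_zero _ (hf0 V)
  · intro V' hV'
    by_cases hbad : IsU V' u
    · have h1 : IsU V' (∏ V ∈ hfin.toFinset, f V ^ n V) := IsU.prod _ _ fun V hV => by
        have hVb : V ∈ 𝒱h ∧ ¬ IsU V u := hfin.mem_toFinset.mp hV
        have hne : V' ≠ V := by
          rintro rfl
          exact hVb.2 hbad
        exact ((hfn V hVb).2 V' hV' hne).zpow _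
      exact hbad.div (h1.pow m)
    · have hV'S : V' ∈ hfin.toFinset := hfin.mem_toFinset.mpr ⟨hV', hbad⟩
      rw [← Finset.mul_prod_erase _ _ hV'S]
      have h2 : IsU V' (∏ V ∈ hfin.toFinset.erase V', f V ^ n V) := IsU.prod _ _ fun V hV => by
        have hVb : V ∈ 𝒱h ∧ ¬ IsU V u := hfin.mem_toFinset.mp (Finset.mem_of_mem_erase hV)
        exact ((hfn V hVb).2 V' hV' (Finset.ne_of_mem_erase hV).symm).zpow _
      have h1 := (hfn V' ⟨hV', hbad⟩).1
      have e : u / (f V' ^ n V' * ∏ V ∈ hfin.toFinset.erase V', f V ^ n V) ^ m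
          = u / (f V' ^ n V') ^ m * ((∏ V ∈ hfin.toFinset.erase V', f V ^ n V) ^ m)⁻¹ := by
        rw [mul_pow, div_mul_eq_div_div, div_eq_mul_inv (u / _)]
      rw [e]
      exact h1.mul (h2.pow m).inv

variable {A₀ : Type*} [CommRing A₀] [Algebra A₀ F]

/-- **(L4a) From units at the horizontal valuation rings to the Cartier condition.**
`C` a chart, `x` a prime of `C`, `𝒱` a family of valuation rings of `F` with the Krull property
at `x` (`hKrull`), `ϖ` the uniformiser of the base (`V ∈ 𝒱` is horizontal when `ϖ⁻¹ ∈ V`).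
`τ` an automorphism of `F` permuting the horizontal members of `𝒱` (`hτh`) and preserving the
valuation of the others (`hτv`).  If `u / g ^ m` is a unit at every horizontal `V ∈ 𝒱`, then
`τ u / u = (a / b) (τ g / g) ^ m` with `a, b ∈ C ∖ x`. -/
theorem cartier_of_unit_family (C : Subalgebra A₀ F) (x : Ideal ↥C) (hx : x.IsPrime) (ϖ : F)
    (𝒱 : Set (ValuationSubring F))
    (hKrull : ∀ y : F, (∀ V ∈ 𝒱, y ∈ V) → ∃ a b : ↥C, b ∉ x ∧ y * (b : F) = (a : F))
    (τ : F ≃+* F)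
    (hτh : ∀ V ∈ 𝒱, ϖ⁻¹ ∈ V →
      V.comap (τ : F →+* F) ∈ 𝒱 ∧ ϖ⁻¹ ∈ V.comap (τ : F →+* F))
    (hτv : ∀ V ∈ 𝒱, ϖ⁻¹ ∉ V → ∀ y : F, y ≠ 0 → IsU V (τ y / y))
    (m : ℕ) (u g : F) (hu : u ≠ 0) (hg : g ≠ 0)
    (hug : ∀ V ∈ 𝒱, ϖ⁻¹ ∈ V → IsU V (u / g ^ m)) :
    ∃ a b : ↥C, a ∉ x ∧ b ∉ x ∧ τ u / u * (b : F) = (a : F) * (τ g / g) ^ m := by
  have hgm : g ^ m ≠ 0 := pow_ne_zero m hg
  have hz0 : u / g ^ m ≠ 0 := div_ne_zero hu hgm
  have hτz0 : τ (u / g ^ m) ≠ 0 := (map_ne_zero τ).mpr hz0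
  have hτu0 : τ u ≠ 0 := (map_ne_zero τ).mpr hu
  have hτg0 : τ g ≠ 0 := (map_ne_zero τ).mpr hg
  -- `w = τ z / z` is a unit at every member of `𝒱`
  have hw : ∀ V ∈ 𝒱, IsU V (τ (u / g ^ m) / (u / g ^ m)) := by
    intro V hV
    by_cases hh : ϖ⁻¹ ∈ V
    · obtain ⟨h1, h2⟩ := hτh V hV hh
      have h3 := hug _ h1 h2
      have h4 : IsU V (τ (u / g ^ m)) := by
        refine ⟨ValuationSubring.mem_comap.mp h3.1, ?_⟩
        rw [← map_inv₀]
        exact ValuationSubring.mem_comap.mp h3.2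
      exact h4.div (hug V hV hh)
    · exact hτv V hV hh _ hz0
  obtain ⟨a, b, hb, hab⟩ := hKrull _ fun V hV => (hw V hV).1
  obtain ⟨a', b', hb', hab'⟩ := hKrull _ fun V hV => (hw V hV).2
  have ha : a ∉ x := by
    intro ha
    have hprod : a * a' = b * b' := by
      apply Subtype.ext
      have e1 : ((a * a' : ↥C) : F) = (a : F) * (a' : F) := rfl
      have e2 : ((b * b' : ↥C) : F) = (b : F) * (b' : F) := rfl
      rw [e1, e2, ← hab, ← hab']
      field_simp
    have : b * b' ∈ x := by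
      rw [← hprod]
      exact x.mul_mem_right _ ha
    rcases hx.mem_or_mem this with h | h
    · exact hb h
    · exact hb' h
  refine ⟨a, b, ha, hb, ?_⟩
  have hτgm : τ g ^ m ≠ 0 := pow_ne_zero m hτg0
  rw [← hab, map_div₀, map_pow, div_pow]
  field_simp

/-- **Step 1 at a point.**  The composition of (L4b) and (L4a), in the shape of the hypotheses
`hcart₁`, `hcart₂` of `Fermat.Agent.S34.H10.exists_pow_mul_mem_of_cartier` (for the function
`τ u / u`). -/
theorem cartier_at_point (C : Subalgebra A₀ F) (x : Ideal ↥C) (hx : x.IsPrime) (ϖ : F)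
    (𝒱 : Set (ValuationSubring F))
    (hKrull : ∀ y : F, (∀ V ∈ 𝒱, y ∈ V) → ∃ a b : ↥C, b ∉ x ∧ y * (b : F) = (a : F))
    (τ : F ≃+* F)
    (hτh : ∀ V ∈ 𝒱, ϖ⁻¹ ∈ V →
      V.comap (τ : F →+* F) ∈ 𝒱 ∧ ϖ⁻¹ ∈ V.comap (τ : F →+* F))
    (hτv : ∀ V ∈ 𝒱, ϖ⁻¹ ∉ V → ∀ y : F, y ≠ 0 → IsU V (τ y / y))
    (m : ℕ) (u : F) (hu : u ≠ 0)
    (hdiv : ∀ V ∈ 𝒱, ϖ⁻¹ ∈ V → ∃ t : F, t ≠ 0 ∧ IsU V (u / t ^ m))
    (hfin : {V : ValuationSubring F | (V ∈ 𝒱 ∧ ϖ⁻¹ ∈ V) ∧ ¬ IsU V u}.Finite)
    (hloc : ∀ V ∈ 𝒱, ϖ⁻¹ ∈ V → ¬ IsU V u → ∃ f : F, f ≠ 0 ∧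
      (∀ y : F, y ≠ 0 → ∃ n : ℤ, IsU V (y / f ^ n)) ∧
      ∀ V' ∈ 𝒱, ϖ⁻¹ ∈ V' → V' ≠ V → IsU V' f) :
    ∃ g : F, g ≠ 0 ∧ ∃ a b : ↥C, a ∉ x ∧ b ∉ x ∧ τ u / u * (b : F) = (a : F) * g ^ m := by
  obtain ⟨g, hg0, hg⟩ := exists_root_of_local_eqs {V | V ∈ 𝒱 ∧ ϖ⁻¹ ∈ V} m u
    (fun V hV => hdiv V hV.1 hV.2) hfin
    (fun V hV hVu => by
      obtain ⟨f, hf0, h1, h2⟩ := hloc V hV.1 hV.2 hVu
      exact ⟨f, hf0, h1, fun V' hV' hne => h2 V' hV'.1 hV'.2 hne⟩)
  obtain ⟨a, b, ha, hb, hab⟩ := cartier_of_unit_family C x hx ϖ 𝒱 hKrull τ hτh hτv m u g hu hg0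
    (fun V hV hh => hg V ⟨hV, hh⟩)
  exact ⟨τ g / g, div_ne_zero ((map_ne_zero τ).mpr hg0) hg0, a, b, ha, hb, hab⟩

end Fermat.Agent.S34.H7
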