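/-
Program B' (S34), package L4 = Step 1 of the chain of report #2200 (helper7): the suppliers of
`Step1Glue.cartier_at_point` for a chart.

`C` a noetherian integrally closed domain with fraction field `F` (a chart of the arithmetic
surface over the ramified base), `x` a prime of `C` (a closed point of the special fibre), `π ∈ x`
the uniformiser of the base.  The family of valuation rings used at `x` is

  `heightOneVals F x` = the local rings `C_P ⊆ F` at the height-one primes `P ⊆ x`.

* `exists_isLocAt`: `C_P` is a discrete valuation ring of `F` (from `H54` (K1)).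
* `krull_at`: the Krull property at `x` (from `H54` (K2')): an element lying in every
  `V ∈ heightOneVals F x` is a fraction `a / b` with `b ∉ x`.
* `comap_mem_heightOneVals`, `isU_map_div_self_of_vertical`: the two hypotheses on the
  automorphism `τ` (it restricts to an automorphism `σ` of `C` with `σ c ≡ c` modulo `π C`).
* `finite_not_isU`: finitely many zeros and poles.
* `local_eq_of_sat_gen`: a local equation at a horizontal height-one prime `P ⊆ x` from an
  element `f ∈ P` generating `P` up to `π`-saturation at `x`: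
  `∀ y ∈ P, ∃ s ∉ x, ∃ n c, s * π ^ n * y = f * c`.
  (smooth point: a generator of `P C_x` in the factorial ring `C_x`, `n = 0`;
   node, `P` rational: `f = b - ξ`, `H77.ker_eq_sat` / `H61.exists_mul_eq_of_pos`.)
* `step1_at`: **Step 1 at the point `x`**: if the order of `u` at every horizontal height-one
  prime through `x` is divisible by `m`, and every such prime at which `u` is not a unit has a
  saturated generator, then `τ u / u = (a / b) g ^ m` with `a, b ∈ C ∖ x`.
* `step1_chart`: the same for a chart `C : Subalgebra A₀ F`, in the shape of `hcart₁`, `hcart₂`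
  of `Fermat.Agent.S34.H10.exists_pow_mul_mem_of_cartier`.
-/
import Fermat.Agent.S34.H7.Step1Glue
import Fermat.Agent.S34.H54.Krull

set_option autoImplicit false
set_option linter.unusedSectionVars false
set_option linter.unusedVariables false

namespace Fermat.Agent.S34.H7

open Fermat.Agent.S34

section Abstract

variable {C : Type*} [CommRing C] [IsDomain C] {F : Type*} [Field F] [Algebra C F]
  [IsFractionRing C F]

/-- `V` is the local ring of `C` at `P`, inside the fraction field `F`. -/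
def IsLocAt (P : Ideal C) (V : ValuationSubring F) : Prop :=
  ∀ y : F, y ∈ V ↔ ∃ a s : C, s ∉ P ∧ y * algebraMap C F s = algebraMap C F a

omit [IsDomain C] [IsFractionRing C F] in
theorem IsLocAt.unique {P : Ideal C} {V V' : ValuationSubring F} (h : IsLocAt P V)
    (h' : IsLocAt P V') : V = V' := by
  ext y
  rw [h y, h' y]

omit [IsDomain C] [IsFractionRing C F] in
theorem IsLocAt.algebraMap_mem {P : Ideal C} [hP : P.IsPrime] {V : ValuationSubring F}
    (h : IsLocAt P V) (c : C) : algebraMap C F c ∈ V :=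
  (h _).mpr ⟨c, 1, (Ideal.ne_top_iff_one P).mp hP.ne_top, by rw [map_one, mul_one]⟩

theorem IsLocAt.isU_of_notMem {P : Ideal C} [hP : P.IsPrime] {V : ValuationSubring F}
    (h : IsLocAt P V) {c : C} (hc : c ∉ P) : IsU V (algebraMap C F c) := by
  have hc0 : algebraMap C F c ≠ 0 := by
    intro h0
    apply hc
    have : c = 0 := IsFractionRing.injective C F (by rw [h0, map_zero])
    rw [this]
    exact P.zero_mem
  exact ⟨h.algebraMap_mem c, (h _).mpr ⟨1, c, hc, by rw [inv_mul_cancel₀ hc0, map_one]⟩⟩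

theorem IsLocAt.inv_notMem_of_mem {P : Ideal C} [hP : P.IsPrime] {V : ValuationSubring F}
    (h : IsLocAt P V) {c : C} (hc0 : c ≠ 0) (hc : c ∈ P) : (algebraMap C F c)⁻¹ ∉ V := by
  have hc0' : algebraMap C F c ≠ 0 := fun h0 =>
    hc0 (IsFractionRing.injective C F (by rw [h0, map_zero]))
  intro hmem
  obtain ⟨a, s, hs, has⟩ := (h _).mp hmem
  apply hs
  have e : algebraMap C F s = algebraMap C F (a * c) := by
    rw [map_mul, ← has]
    field_simp
  rw [IsFractionRing.injective C F e]
  exact P.mul_mem_left _ hc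

/-- For `π ≠ 0`: the local ring at `P` is horizontal (`π⁻¹ ∈ V`) iff `π ∉ P`. -/
theorem IsLocAt.inv_mem_iff {P : Ideal C} [hP : P.IsPrime] {V : ValuationSubring F}
    (h : IsLocAt P V) {π : C} (hπ0 : π ≠ 0) : (algebraMap C F π)⁻¹ ∈ V ↔ π ∉ P :=
  ⟨fun hm hπ => h.inv_notMem_of_mem hπ0 hπ hm, fun hπ => (h.isU_of_notMem hπ).2⟩

theorem IsLocAt.mem_nonunits_of_mem {P : Ideal C} [hP : P.IsPrime] {V : ValuationSubring F}
    (h : IsLocAt P V) {c : C} (hc : c ∈ P) : algebraMap C F c ∈ V.nonunits := by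
  rw [ValuationSubring.mem_nonunits_iff_or]
  by_cases hc0 : c = 0
  · left
    rw [hc0, map_zero]
  · right
    exact h.inv_notMem_of_mem hc0 hc

/-- The valuation rings of `F` at the height-one primes of `C` contained in `x`. -/
def heightOneVals (F : Type*) [Field F] [Algebra C F] (x : Ideal C) :
    Set (ValuationSubring F) :=
  {V | ∃ P : Ideal C, P.IsPrime ∧ P.height = 1 ∧ P ≤ x ∧ IsLocAt P V}

variable [IsNoetherianRing C] [IsIntegrallyClosed C]

/-- The local ring of `C` at a height-one prime is a discrete valuation ring of `F`. -/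
theorem exists_isLocAt (P : Ideal C) [hP : P.IsPrime] (hht : P.height = 1) :
    ∃ V : ValuationSubring F, IsLocAt P V ∧ IsDiscreteValuationRing V := by
  have hle : P.primeCompl ≤ nonZeroDivisors C := P.primeCompl_le_nonZeroDivisors
  let D : Subalgebra C F := Localization.subalgebra.ofField F P.primeCompl hle
  have hmemD : ∀ y : F, y ∈ D ↔ ∃ (a s : C) (_ : s ∈ P.primeCompl),
      y = algebraMap C F a * (algebraMap C F s)⁻¹ := fun y => Iff.rfl
  have hdvr0 : IsDiscreteValuationRing (Localization.AtPrime P) :=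
    H54.isDiscreteValuationRing_atPrime_of_height_one P hht
  have hloc : IsLocalization P.primeCompl ↥D :=
    Localization.subalgebra.isLocalization_ofField F _ hle
  have hdvrD : IsDiscreteValuationRing ↥D :=
    IsDiscreteValuationRing.RingEquivClass.isDiscreteValuationRing
      (IsLocalization.algEquiv P.primeCompl (Localization.AtPrime P) ↥D)
  have hor : ∀ y : F, y ∈ D ∨ y⁻¹ ∈ D := by
    intro y
    rcases ValuationRing.isInteger_or_isInteger ↥D y with ⟨d, hd⟩ | ⟨d, hd⟩
    · left
      rw [← hd]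
      exact d.2
    · right
      rw [← hd]
      exact d.2
  let V : ValuationSubring F := { D.toSubring with mem_or_inv_mem' := hor }
  have hVD : ∀ y : F, y ∈ V ↔ y ∈ D := fun y => Iff.rfl
  have hne : ∀ s : C, s ∉ P → algebraMap C F s ≠ 0 := by
    intro s hs h0
    apply hs
    have : s = 0 := IsFractionRing.injective C F (by rw [h0, map_zero])
    rw [this]
    exact P.zero_mem
  refine ⟨V, ?_, ?_⟩
  · intro y
    rw [hVD, hmemD]
    constructor
    · rintro ⟨a, s, hs, rfl⟩
      exact ⟨a, s, hs, by rw [mul_assoc, inv_mul_cancel₀ (hne s hs), mul_one]⟩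
    · rintro ⟨a, s, hs, h⟩
      exact ⟨a, s, hs, by rw [← h, mul_assoc, mul_inv_cancel₀ (hne s hs), mul_one]⟩
  · let e : ↥D ≃+* ↥V :=
      { toFun := fun d => ⟨d.1, d.2⟩
        invFun := fun v => ⟨v.1, v.2⟩
        left_inv := fun _ => rfl
        right_inv := fun _ => rfl
        map_mul' := fun _ _ => rfl
        map_add' := fun _ _ => rfl }
    exact IsDiscreteValuationRing.RingEquivClass.isDiscreteValuationRing e

/-- **Krull property at `x`.**  An element of `F` lying in the local rings of `C` at all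
height-one primes contained in the prime `x` is a fraction with denominator outside `x`. -/
theorem krull_at (x : Ideal C) [hx : x.IsPrime] (y : F)
    (h : ∀ V ∈ heightOneVals F x, y ∈ V) :
    ∃ a b : C, b ∉ x ∧ y * algebraMap C F b = algebraMap C F a := by
  have hle : x.primeCompl ≤ nonZeroDivisors C := x.primeCompl_le_nonZeroDivisors
  let D : Subalgebra C F := Localization.subalgebra.ofField F x.primeCompl hle
  have hmemD : ∀ y : F, y ∈ D ↔ ∃ (a s : C) (_ : s ∈ x.primeCompl),
      y = algebraMap C F a * (algebraMap C F s)⁻¹ := fun y => Iff.rfl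
  have hloc : IsLocalization x.primeCompl ↥D :=
    Localization.subalgebra.isLocalization_ofField F _ hle
  have hN : IsNoetherianRing ↥D := IsLocalization.isNoetherianRing x.primeCompl ↥D inferInstance
  have hIC : IsIntegrallyClosed ↥D := isIntegrallyClosed_of_isLocalization ↥D x.primeCompl hle
  have hne : ∀ s : C, s ∉ x → algebraMap C F s ≠ 0 := by
    intro s hs h0
    apply hs
    have : s = 0 := IsFractionRing.injective C F (by rw [h0, map_zero])
    rw [this]
    exact x.zero_mem
  by_cases hy : y ∈ (algebraMap ↥D F).range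
  · obtain ⟨d, rfl⟩ := hy
    obtain ⟨a, s, hs, hd⟩ := (hmemD _).mp d.2
    refine ⟨a, s, hs, ?_⟩
    have hd' : algebraMap ↥D F d = algebraMap C F a * (algebraMap C F s)⁻¹ := hd
    rw [hd', mul_assoc, inv_mul_cancel₀ (hne s hs), mul_one]
  · exfalso
    obtain ⟨P', hP', hht', hden⟩ := H54.exists_height_one_of_not_mem_range (C := ↥D) y hy
    have hP : (P'.under C).IsPrime := Ideal.comap_isPrime _ _
    have hht : (P'.under C).height = 1 := by
      rw [IsLocalization.height_under x.primeCompl P']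
      exact hht'
    have hPx : P'.under C ≤ x := by
      intro c hc
      by_contra hcx
      have hu : IsUnit (algebraMap C ↥D c) := IsLocalization.map_units ↥D (⟨c, hcx⟩ : x.primeCompl)
      exact hP'.ne_top (Ideal.eq_top_of_isUnit_mem _ hc hu)
    obtain ⟨V, hV, -⟩ := exists_isLocAt (F := F) (P'.under C) hht
    obtain ⟨a, s, hs, hys⟩ := (hV y).mp (h V ⟨_, hP, hht, hPx, hV⟩)
    apply hs
    show algebraMap C ↥D s ∈ P'
    apply hden
    refine ⟨algebraMap C ↥D a, ?_⟩
    rw [← IsScalarTower.algebraMap_apply C ↥D F, ← IsScalarTower.algebraMap_apply C ↥D F, ← hys,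
      mul_comm]

/-! ### The automorphism -/

omit [IsDomain C] [IsFractionRing C F] [IsNoetherianRing C] [IsIntegrallyClosed C] in
/-- Transport of a local ring by an automorphism `τ` of `F` restricting to `σ` on `C`. -/
theorem IsLocAt.comap {P : Ideal C} {V : ValuationSubring F} (h : IsLocAt P V) (τ : F ≃+* F)
    (σ : C ≃+* C) (hστ : ∀ c, τ (algebraMap C F c) = algebraMap C F (σ c)) :
    IsLocAt (P.comap σ) (V.comap (τ : F →+* F)) := by
  intro y
  rw [ValuationSubring.mem_comap]
  show τ y ∈ V ↔ _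
  rw [h (τ y)]
  constructor
  · rintro ⟨a, s, hs, hy⟩
    refine ⟨σ.symm a, σ.symm s, ?_, ?_⟩
    · rw [Ideal.mem_comap, RingEquiv.apply_symm_apply]
      exact hs
    · apply τ.injective
      rw [map_mul, hστ, hστ, RingEquiv.apply_symm_apply, RingEquiv.apply_symm_apply]
      exact hy
  · rintro ⟨a, s, hs, hy⟩
    refine ⟨σ a, σ s, hs, ?_⟩
    rw [← hστ, ← hστ, ← map_mul, hy]

/-- `τ` permutes the horizontal valuation rings at `x`. -/
theorem comap_mem_heightOneVals (x : Ideal C) (π : C) (hπ0 : π ≠ 0) (hπx : π ∈ x)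
    (τ : F ≃+* F) (σ : C ≃+* C) (hστ : ∀ c, τ (algebraMap C F c) = algebraMap C F (σ c))
    (hσ1 : ∀ c : C, ∃ d : C, σ c = c + π * d) (hσπ : ∃ ε : C, π = σ π * ε)
    (V : ValuationSubring F) (hV : V ∈ heightOneVals F x) (hh : (algebraMap C F π)⁻¹ ∈ V) :
    V.comap (τ : F →+* F) ∈ heightOneVals F x ∧
      (algebraMap C F π)⁻¹ ∈ V.comap (τ : F →+* F) := by
  obtain ⟨P, hP, hht, hPx, hPV⟩ := hV
  have hπP : π ∉ P := (hPV.inv_mem_iff hπ0).mp hh
  have hP' : (P.comap σ).IsPrime := Ideal.comap_isPrime _ _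
  have hloc' := hPV.comap τ σ hστ
  have hπP' : π ∉ P.comap σ := by
    intro hmem
    rw [Ideal.mem_comap] at hmem
    obtain ⟨ε, hε⟩ := hσπ
    apply hπP
    rw [hε]
    exact P.mul_mem_right _ hmem
  refine ⟨⟨P.comap σ, hP', ?_, ?_, hloc'⟩, (hloc'.inv_mem_iff hπ0).mpr hπP'⟩
  · rw [RingEquiv.height_comap]
    exact hht
  · intro c hc
    rw [Ideal.mem_comap] at hc
    obtain ⟨d, hd⟩ := hσ1 c
    have h1 : σ c ∈ x := hPx hc
    have h2 : c = σ c - π * d := by rw [hd]; ring
    rw [h2]
    exact x.sub_mem h1 (x.mul_mem_right _ hπx)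

/-- `τ` preserves the valuation of the vertical valuation rings at `x`. -/
theorem isU_map_div_self_of_vertical (x : Ideal C) (π : C) (hπ0 : π ≠ 0)
    (τ : F ≃+* F) (σ : C ≃+* C) (hστ : ∀ c, τ (algebraMap C F c) = algebraMap C F (σ c))
    (hσ1 : ∀ c : C, ∃ d : C, σ c = c + π * d)
    (V : ValuationSubring F) (hV : V ∈ heightOneVals F x) (hh : (algebraMap C F π)⁻¹ ∉ V)
    (y : F) (hy : y ≠ 0) : IsU V (τ y / y) := by
  obtain ⟨P, hP, hht, hPx, hPV⟩ := hV
  have hπP : π ∈ P := by
    by_contra hπP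
    exact hh ((hPV.inv_mem_iff hπ0).mpr hπP)
  have hcomap : P.comap σ = P := by
    ext c
    rw [Ideal.mem_comap]
    obtain ⟨d, hd⟩ := hσ1 c
    rw [hd]
    constructor
    · intro h
      have h2 : c = c + π * d - π * d := by ring
      rw [h2]
      exact P.sub_mem h (P.mul_mem_right _ hπP)
    · intro h
      exact P.add_mem h (P.mul_mem_right _ hπP)
  have hloc' := hPV.comap τ σ hστ
  rw [hcomap] at hloc'
  have hVeq : V.comap (τ : F →+* F) = V := hloc'.unique hPV
  obtain ⟨V', hV', hdvr⟩ := exists_isLocAt (F := F) P hht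
  have hVV' : V = V' := hPV.unique hV'
  subst hVV'
  refine isU_map_div_self V τ (fun z => ?_) y hy
  constructor
  · intro hz
    have : z ∈ V.comap (τ : F →+* F) := by rw [hVeq]; exact hz
    exact ValuationSubring.mem_comap.mp this
  · intro hz
    have : z ∈ V.comap (τ : F →+* F) := ValuationSubring.mem_comap.mpr hz
    rwa [hVeq] at this

/-! ### Finiteness of zeros and poles -/

/-- A nonzero function is a unit at all but finitely many of the local rings at height-one
primes. -/
theorem finite_not_isU (x : Ideal C) (u : F) (hu : u ≠ 0) :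
    {V : ValuationSubring F | V ∈ heightOneVals F x ∧ ¬ IsU V u}.Finite := by
  obtain ⟨a, b, hb, rfl⟩ := IsFractionRing.div_surjective C u
  have hb0 : b ≠ 0 := nonZeroDivisors.ne_zero hb
  have ha0 : a ≠ 0 := by
    rintro rfl
    rw [map_zero, zero_div] at hu
    exact hu rfl
  have hfin : ((Ideal.span {a} : Ideal C).minimalPrimes ∪
      (Ideal.span {b} : Ideal C).minimalPrimes).Finite :=
    (Ideal.finite_minimalPrimes_of_isNoetherianRing C _).union
      (Ideal.finite_minimalPrimes_of_isNoetherianRing C _)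
  have hsub : {V : ValuationSubring F | V ∈ heightOneVals F x ∧ ¬ IsU V
      (algebraMap C F a / algebraMap C F b)} ⊆
      ⋃ P ∈ ((Ideal.span {a} : Ideal C).minimalPrimes ∪ (Ideal.span {b} : Ideal C).minimalPrimes),
        {V : ValuationSubring F | IsLocAt P V} := by
    rintro V ⟨⟨P, hP, hht, hPx, hPV⟩, hnU⟩
    have hab : a ∈ P ∨ b ∈ P := by
      by_contra hcon
      push Not at hcon
      exact hnU ((hPV.isU_of_notMem hcon.1).div (hPV.isU_of_notMem hcon.2))
    simp only [Set.mem_iUnion, Set.mem_ofPred_eq, exists_prop]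
    rcases hab with h | h
    · exact ⟨P, Or.inl (H54.mem_minimalPrimes_span_singleton_of_height_eq_one a ha0 P hht h), hPV⟩
    · exact ⟨P, Or.inr (H54.mem_minimalPrimes_span_singleton_of_height_eq_one b hb0 P hht h), hPV⟩
  refine (hfin.biUnion fun P _ => ?_).subset hsub
  apply Set.Subsingleton.finite
  intro V hV V' hV'
  exact IsLocAt.unique hV hV'

/-! ### Local equations -/

/-- **Local equation from a saturated generator.**  `P ⊆ x` a horizontal height-one prime,
`f ∈ P` generating `P` at `x` up to `π`-saturation.  Then `f` is a uniformiser of `C_P` and a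
unit at every other horizontal height-one local ring at `x`. -/
theorem local_eq_of_sat_gen (x : Ideal C) (π : C) (hπ0 : π ≠ 0)
    (P : Ideal C) [hP : P.IsPrime] (hht : P.height = 1) (hPx : P ≤ x) (hπP : π ∉ P)
    (f : C) (hfP : f ∈ P)
    (hgen : ∀ y ∈ P, ∃ s : C, s ∉ x ∧ ∃ (n : ℕ) (c : C), s * π ^ n * y = f * c)
    (V : ValuationSubring F) (hV : IsLocAt P V) :
    algebraMap C F f ≠ 0 ∧
      (∀ y : F, y ≠ 0 → ∃ n : ℤ, IsU V (y / algebraMap C F f ^ n)) ∧
      ∀ V' ∈ heightOneVals F x, (algebraMap C F π)⁻¹ ∈ V' → V' ≠ V →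
        IsU V' (algebraMap C F f) := by
  have hinj : Function.Injective (algebraMap C F) := IsFractionRing.injective C F
  have hP0 : P ≠ ⊥ := by
    intro h
    rw [h, Ideal.height_bot] at hht
    exact zero_ne_one hht
  obtain ⟨y₀, hy₀P, hy₀0⟩ := Submodule.exists_mem_ne_zero_of_ne_bot hP0
  have hf0 : f ≠ 0 := by
    rintro rfl
    obtain ⟨s, hs, n, c, hc⟩ := hgen y₀ hy₀P
    rw [zero_mul] at hc
    have hs0 : s ≠ 0 := by
      rintro rfl
      exact hs x.zero_mem
    exact mul_ne_zero (mul_ne_zero hs0 (pow_ne_zero n hπ0)) hy₀0 hc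
  have hf0' : algebraMap C F f ≠ 0 := fun h => hf0 (hinj (by rw [h, map_zero]))
  refine ⟨hf0', ?_, ?_⟩
  · obtain ⟨V', hV', hdvr⟩ := exists_isLocAt (F := F) P hht
    have hVV' : V = V' := hV.unique hV'
    subst hVV'
    refine exists_zpow_isU_of_generator V _ hf0' (hV.mem_nonunits_of_mem hfP) ?_
    intro y hy
    by_cases hy0 : y = 0
    · rw [hy0, zero_div]
      exact V.zero_mem
    have hyV : y ∈ V := ValuationSubring.nonunits_subset hy
    obtain ⟨a₀, s₀, hs₀, hys₀⟩ := (hV y).mp hyV
    have ha₀P : a₀ ∈ P := by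
      by_contra ha₀
      have hyU : IsU V y := by
        have hs₀0 : algebraMap C F s₀ ≠ 0 := by
          intro h0
          apply hs₀
          rw [hinj (by rw [h0, map_zero] : algebraMap C F s₀ = algebraMap C F 0)]
          exact P.zero_mem
        have e : y = algebraMap C F a₀ / algebraMap C F s₀ := by
          rw [← hys₀, mul_div_assoc, div_self hs₀0, mul_one]
        rw [e]
        exact (hV.isU_of_notMem ha₀).div (hV.isU_of_notMem hs₀)
      rw [ValuationSubring.mem_nonunits_iff_or] at hy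
      rcases hy with h | h
      · exact hy0 h
      · exact h hyU.2
    obtain ⟨s, hs, n, c, hc⟩ := hgen a₀ ha₀P
    have hsP : s ∉ P := fun h => hs (hPx h)
    have hden : s₀ * (s * π ^ n) ∉ P := by
      intro h
      rcases hP.mem_or_mem h with h | h
      · exact hs₀ h
      · rcases hP.mem_or_mem h with h | h
        · exact hsP h
        · exact hπP (hP.mem_of_pow_mem n h)
    refine (hV _).mpr ⟨c, s₀ * (s * π ^ n), hden, ?_⟩
    have e1 : algebraMap C F (s * π ^ n * a₀) = algebraMap C F (f * c) := by rw [hc]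
    rw [map_mul, map_mul, map_mul, ← hys₀] at e1
    rw [map_mul, map_mul]
    field_simp
    linear_combination e1
  · rintro V' ⟨P', hP', hht', hP'x, hP'V'⟩ hh' hne
    have hπP' : π ∉ P' := (hP'V'.inv_mem_iff hπ0).mp hh'
    have hfP' : f ∉ P' := by
      intro hfP'
      have hPle : P ≤ P' := by
        intro y hy
        obtain ⟨s, hs, n, c, hc⟩ := hgen y hy
        have h1 : s * π ^ n * y ∈ P' := by
          rw [hc]
          exact P'.mul_mem_right _ hfP'
        rcases hP'.mem_or_mem h1 with h | h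
        · rcases hP'.mem_or_mem h with h | h
          · exact absurd (hP'x h) hs
          · exact absurd (hP'.mem_of_pow_mem n h) hπP'
        · exact h
      have hmin := H54.mem_minimalPrimes_span_singleton_of_height_eq_one y₀ hy₀0 P' hht'
        (hPle hy₀P)
      have hle : P' ≤ P :=
        hmin.2 ⟨hP, (Ideal.span_singleton_le_iff_mem _).mpr hy₀P⟩ hPle
      have hPP' : P' = P := le_antisymm hle hPle
      subst hPP'
      exact hne (hP'V'.unique hV)
    exact hP'V'.isU_of_notMem hfP'

/-! ### Suppliers of saturated generators -/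

omit [IsFractionRing C F] [IsNoetherianRing C] [IsIntegrallyClosed C] in
/-- **Localisation adapter.**  A saturated generator of `P` in the local ring `D = C_x` gives a
saturated generator in the shape of `local_eq_of_sat_gen`, `step1_chart`. -/
theorem sat_gen_of_isLocalization (x : Ideal C) [hx : x.IsPrime] (π : C)
    (D : Type*) [CommRing D] [Algebra C D] [IsLocalization.AtPrime D x]
    (P : Ideal C) [hP : P.IsPrime] (hPx : P ≤ x) (g : D)
    (hgP : g ∈ P.map (algebraMap C D))
    (hgen : ∀ y ∈ P, ∃ (n : ℕ) (c : D), algebraMap C D (π ^ n * y) = g * c) :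
    ∃ f ∈ P, ∀ y ∈ P, ∃ s : C, s ∉ x ∧ ∃ (n : ℕ) (c : C), s * π ^ n * y = f * c := by
  have hle : x.primeCompl ≤ nonZeroDivisors C := x.primeCompl_le_nonZeroDivisors
  have hinj : Function.Injective (algebraMap C D) := IsLocalization.injective D hle
  have hdisj : Disjoint (x.primeCompl : Set C) (P : Set C) :=
    Set.disjoint_left.mpr fun c hc hcP => hc (hPx hcP)
  obtain ⟨⟨f, s₁⟩, hfs⟩ := IsLocalization.surj x.primeCompl g
  have hfs' : g * algebraMap C D (s₁ : C) = algebraMap C D f := hfs
  have hfP : f ∈ P := by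
    have h1 : algebraMap C D f ∈ P.map (algebraMap C D) := by
      rw [← hfs']
      exact Ideal.mul_mem_right _ _ hgP
    have h2 : f ∈ (P.map (algebraMap C D)).under C := h1
    rwa [IsLocalization.under_map_of_isPrime_disjoint x.primeCompl D hP hdisj] at h2
  refine ⟨f, hfP, fun y hy => ?_⟩
  obtain ⟨n, c, hc⟩ := hgen y hy
  obtain ⟨⟨c₀, s₂⟩, hcs⟩ := IsLocalization.surj x.primeCompl c
  have hcs' : c * algebraMap C D (s₂ : C) = algebraMap C D c₀ := hcs
  refine ⟨(s₁ : C) * (s₂ : C), ?_, n, c₀, ?_⟩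
  · intro h
    rcases hx.mem_or_mem h with h | h
    · exact s₁.2 h
    · exact s₂.2 h
  · apply hinj
    have e : algebraMap C D ((s₁ : C) * (s₂ : C) * π ^ n * y) =
        algebraMap C D (π ^ n * y) * algebraMap C D (s₁ : C) * algebraMap C D (s₂ : C) := by
      rw [← map_mul, ← map_mul]
      congr 1
      ring
    rw [e, hc, map_mul, ← hfs', ← hcs']
    ring

omit [IsFractionRing C F] [IsNoetherianRing C] [IsIntegrallyClosed C] in
/-- **Smooth points.**  If the local ring `C_x` is factorial, every height-one prime `P ⊆ x`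
has a generator at `x`. -/
theorem sat_gen_of_ufd (x : Ideal C) [hx : x.IsPrime] (π : C)
    (D : Type*) [CommRing D] [IsDomain D] [Algebra C D] [IsLocalization.AtPrime D x]
    (hufd : UniqueFactorizationMonoid D)
    (P : Ideal C) [hP : P.IsPrime] (hht : P.height = 1) (hPx : P ≤ x) :
    ∃ f ∈ P, ∀ y ∈ P, ∃ s : C, s ∉ x ∧ ∃ (n : ℕ) (c : C), s * π ^ n * y = f * c := by
  have hle : x.primeCompl ≤ nonZeroDivisors C := x.primeCompl_le_nonZeroDivisors
  have hinj : Function.Injective (algebraMap C D) := IsLocalization.injective D hle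
  have hdisj : Disjoint (x.primeCompl : Set C) (P : Set C) :=
    Set.disjoint_left.mpr fun c hc hcP => hc (hPx hcP)
  have hP' : (P.map (algebraMap C D)).IsPrime :=
    IsLocalization.isPrime_of_isPrime_disjoint x.primeCompl D P hP hdisj
  have hht' : (P.map (algebraMap C D)).height = 1 := by
    rw [IsLocalization.height_map_of_disjoint x.primeCompl P hdisj]
    exact hht
  have hP0 : P ≠ ⊥ := by
    intro h
    rw [h, Ideal.height_bot] at hht
    exact zero_ne_one hht
  obtain ⟨y₀, hy₀P, hy₀0⟩ := Submodule.exists_mem_ne_zero_of_ne_bot hP0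
  have hP'0 : P.map (algebraMap C D) ≠ ⊥ := by
    intro h
    have h1 : algebraMap C D y₀ ∈ P.map (algebraMap C D) := Ideal.mem_map_of_mem _ hy₀P
    rw [h, Ideal.mem_bot] at h1
    exact hy₀0 (hinj (by rw [h1, map_zero]))
  obtain ⟨p, hpP', hp⟩ := Ideal.IsPrime.exists_mem_prime_of_ne_bot hP' hP'0
  have hmin := H54.mem_minimalPrimes_span_singleton_of_height_eq_one p hp.ne_zero
    (P.map (algebraMap C D)) hht' hpP'
  have hle' : P.map (algebraMap C D) ≤ Ideal.span {p} :=
    hmin.2 ⟨(Ideal.span_singleton_prime hp.ne_zero).mpr hp, le_rfl⟩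
      ((Ideal.span_singleton_le_iff_mem _).mpr hpP')
  refine sat_gen_of_isLocalization x π D P hPx p hpP' fun y hy => ?_
  have h1 : algebraMap C D y ∈ Ideal.span {p} := hle' (Ideal.mem_map_of_mem _ hy)
  obtain ⟨c, hc⟩ := Ideal.mem_span_singleton'.mp h1
  exact ⟨0, c, by rw [pow_zero, one_mul, ← hc, mul_comm]⟩

end Abstract

/-! ### Step 1 at a point of a chart -/

/-- **Step 1 at a closed point of a chart** (report #2200), in the shape of the hypotheses
`hcart₁`, `hcart₂` of `Fermat.Agent.S34.H10.exists_pow_mul_mem_of_cartier`.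

`C` a noetherian integrally closed chart with fraction field `F`, `x` a prime of `C`, `π ∈ x`
the uniformiser of the base, `τ` an automorphism of `F` preserving `C` and congruent to the
identity modulo `π C`, with `τ π` an associate of `π`.  If the order of `u` at every horizontal
height-one prime `P ⊆ x` is divisible by `m` (`hdiv`), and every such `P` at which `u` is not
a unit is generated at `x`, up to `π`-saturation, by one element `f` (`hgen`), then
`τ u / u = (a / b) g ^ m` with `a, b ∈ C ∖ x`. -/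
theorem step1_chart {A₀ : Type*} [CommRing A₀] {F : Type*} [Field F] [Algebra A₀ F]
    (C : Subalgebra A₀ F) [IsFractionRing ↥C F] [IsNoetherianRing ↥C] [IsIntegrallyClosed ↥C]
    (x : Ideal ↥C) (hx : x.IsPrime) (π : ↥C) (hπ0 : π ≠ 0) (hπx : π ∈ x)
    (τ : F ≃+* F) (hτC : ∀ c ∈ C, τ c ∈ C) (hτC' : ∀ c ∈ C, τ.symm c ∈ C)
    (hτ1 : ∀ c ∈ C, ∃ d ∈ C, τ c = c + (π : F) * d)
    (hτπ : ∃ ε ∈ C, (π : F) = τ (π : F) * ε)
    (m : ℕ) (u : F) (hu : u ≠ 0)
    (hdiv : ∀ V ∈ heightOneVals F x, (π : F)⁻¹ ∈ V → ∃ t : F, t ≠ 0 ∧ IsU V (u / t ^ m))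
    (hgen : ∀ P : Ideal ↥C, P.IsPrime → P.height = 1 → P ≤ x → π ∉ P →
      (∀ V : ValuationSubring F, IsLocAt P V → ¬ IsU V u) →
      ∃ f ∈ P, ∀ y ∈ P, ∃ s : ↥C, s ∉ x ∧ ∃ (n : ℕ) (c : ↥C), s * π ^ n * y = f * c) :
    ∃ g : F, g ≠ 0 ∧ ∃ a b : ↥C, a ∉ x ∧ b ∉ x ∧ τ u / u * (b : F) = (a : F) * g ^ m := by
  let σ : ↥C ≃+* ↥C :=
    { toFun := fun c => ⟨τ c, hτC c c.2⟩
      invFun := fun c => ⟨τ.symm c, hτC' c c.2⟩
      left_inv := fun c => Subtype.ext (τ.symm_apply_apply c)
      right_inv := fun c => Subtype.ext (τ.apply_symm_apply c)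
      map_mul' := fun a b => Subtype.ext (map_mul τ (a : F) (b : F))
      map_add' := fun a b => Subtype.ext (map_add τ (a : F) (b : F)) }
  have hστ : ∀ c : ↥C, τ (algebraMap ↥C F c) = algebraMap ↥C F (σ c) := fun c => rfl
  have hσ1 : ∀ c : ↥C, ∃ d : ↥C, σ c = c + π * d := by
    intro c
    obtain ⟨d, hd, h⟩ := hτ1 c c.2
    exact ⟨⟨d, hd⟩, Subtype.ext h⟩
  have hσπ : ∃ ε : ↥C, π = σ π * ε := by
    obtain ⟨ε, hε, h⟩ := hτπ
    exact ⟨⟨ε, hε⟩, Subtype.ext h⟩
  have : x.IsPrime := hx
  refine cartier_at_point C x hx (π : F) (heightOneVals F x) (fun y h => ?_) τ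
    (fun V hV hh => comap_mem_heightOneVals x π hπ0 hπx τ σ hστ hσ1 hσπ V hV hh)
    (fun V hV hh y hy => isU_map_div_self_of_vertical x π hπ0 τ σ hστ hσ1 V hV hh y hy)
    m u hu hdiv ((finite_not_isU x u hu).subset fun V hV => ⟨hV.1.1, hV.2⟩) ?_
  · obtain ⟨a, b, hb, hab⟩ := krull_at x y h
    exact ⟨a, b, hb, hab⟩
  · rintro V ⟨P, hP, hht, hPx, hPV⟩ hh hVu
    have hπP : π ∉ P := (hPV.inv_mem_iff hπ0).mp hh
    obtain ⟨f, hfP, hgenf⟩ := hgen P hP hht hPx hπP (fun V' hV' => by
      rw [← hPV.unique hV']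
      exact hVu)
    obtain ⟨hf0, hunif, hother⟩ := local_eq_of_sat_gen x π hπ0 P hht hPx hπP f hfP hgenf V hPV
    exact ⟨(f : F), hf0, hunif, hother⟩

/-- The divisibility hypothesis `hdiv` of `step1_chart` from its form in Program J
(`S18.H72.local_factor_core`): all discrete valuation rings of `F` containing `C` and `π⁻¹`. -/
theorem hdiv_of_forall_dvr {A₀ : Type*} [CommRing A₀] {F : Type*} [Field F] [Algebra A₀ F]
    (C : Subalgebra A₀ F) [IsFractionRing ↥C F] [IsNoetherianRing ↥C] [IsIntegrallyClosed ↥C]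
    (x : Ideal ↥C) (π : ↥C) (m : ℕ) (u : F)
    (h : ∀ V : ValuationSubring F, (π : F)⁻¹ ∈ V → (∀ r : ↥C, (r : F) ∈ V) →
      IsDiscreteValuationRing V → ∃ t : F, t ≠ 0 ∧ u / t ^ m ∈ V ∧ (u / t ^ m)⁻¹ ∈ V) :
    ∀ V ∈ heightOneVals F x, (π : F)⁻¹ ∈ V → ∃ t : F, t ≠ 0 ∧ IsU V (u / t ^ m) := by
  rintro V ⟨P, hP, hht, hPx, hPV⟩ hh
  have : P.IsPrime := hP
  obtain ⟨V', hV', hdvr⟩ := exists_isLocAt (F := F) P hht
  have hVV' : V = V' := hPV.unique hV'
  subst hVV'
  obtain ⟨t, ht0, h1, h2⟩ := h V hh (fun r => hPV.algebraMap_mem r) hdvr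
  exact ⟨t, ht0, h1, h2⟩

/-- **Step 1 at a point where the chart is locally factorial** (smooth points of the special
fibre, and more generally regular points): no hypothesis on the zeros and poles of `u`. -/
theorem step1_chart_of_ufd {A₀ : Type*} [CommRing A₀] {F : Type*} [Field F] [Algebra A₀ F]
    (C : Subalgebra A₀ F) [IsFractionRing ↥C F] [IsNoetherianRing ↥C] [IsIntegrallyClosed ↥C]
    (x : Ideal ↥C) [hx : x.IsPrime] (π : ↥C) (hπ0 : π ≠ 0) (hπx : π ∈ x)
    (τ : F ≃+* F) (hτC : ∀ c ∈ C, τ c ∈ C) (hτC' : ∀ c ∈ C, τ.symm c ∈ C)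
    (hτ1 : ∀ c ∈ C, ∃ d ∈ C, τ c = c + (π : F) * d)
    (hτπ : ∃ ε ∈ C, (π : F) = τ (π : F) * ε)
    (D : Type*) [CommRing D] [IsDomain D] [Algebra ↥C D] [IsLocalization.AtPrime D x]
    (hufd : UniqueFactorizationMonoid D)
    (m : ℕ) (u : F) (hu : u ≠ 0)
    (hdiv : ∀ V ∈ heightOneVals F x, (π : F)⁻¹ ∈ V → ∃ t : F, t ≠ 0 ∧ IsU V (u / t ^ m)) :
    ∃ g : F, g ≠ 0 ∧ ∃ a b : ↥C, a ∉ x ∧ b ∉ x ∧ τ u / u * (b : F) = (a : F) * g ^ m :=
  step1_chart C x hx π hπ0 hπx τ hτC hτC' hτ1 hτπ m u hu hdiv
    fun P hP hht hPx _ _ => by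
      have : P.IsPrime := hP
      exact sat_gen_of_ufd x π D hufd P hht hPx

end Fermat.Agent.S34.H7
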