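/-
Program B' (S34), helper7: suppliers of the local divisor datum `Fermat.Agent.S34.H30.HLoc` of the
skeleton (the hypothesis of leaf (L4), asked by `ModelStatement` at every closed point of the
special fibre of both charts).

`HLoc ϖ m C x u` : there is `f ≠ 0` with `u / f ^ m` a unit at every prime `P ≤ x` of `C` not
containing `ϖ`.

* `hLoc_of_isU`     : from `u / f ^ m` a unit at the height-one horizontal local rings at `x`
                      (Krull property at each prime `P ≤ x`; no hypothesis on the dimension).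
* `hLoc_of_sat_gen` : from the divisibility of the orders of `u` by `m` (`hdiv`) and saturated
                      generators of the horizontal height-one primes in the support (`hgen`);
                      this is the case of a crossing point met by rational points of the support
                      (`sat_gen_of_isLocalization` + `H77.ker_eq_sat`).
* `hLoc_of_ufd`     : from `hdiv` alone when the local ring `C_x` is factorial (one-component
                      points, cusps); in particular at every point not met by the support.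
* `hLoc_of_forall_isU` : the trivial case `f = 1` (no zero or pole of `u` through `x`).
* `isFractionRing_of_frac` : the instance `IsFractionRing ↥C F` from the elementwise hypothesis
                      `frac` of `ChartData.Good`.
-/
import Fermat.Agent.S34.H30.Skeleton
import Fermat.Agent.S34.H7.Step1Supply

set_option autoImplicit false

namespace Fermat.Agent.S34.H7

open Fermat.Agent.S34.H30

/-- The fraction-field instance from the elementwise hypothesis of `ChartData.Good`. -/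
theorem isFractionRing_of_frac {A₀ F : Type*} [CommRing A₀] [Field F] [Algebra A₀ F]
    (C : Subalgebra A₀ F) (hfrac : ∀ y : F, ∃ a ∈ C, ∃ b ∈ C, b ≠ 0 ∧ y = a / b) :
    IsFractionRing ↥C F := by
  refine IsFractionRing.of_field ↥C F fun z => ?_
  obtain ⟨a, ha, b, hb, -, hz⟩ := hfrac z
  exact ⟨⟨a, ha⟩, ⟨b, hb⟩, hz⟩

variable {A₀ F₀ : Type} [CommRing A₀] [Field F₀] [Algebra A₀ F₀]

/-- `HLoc` from a function `f` with `u / f ^ m` a unit at every horizontal height-one local ring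
at `x`. -/
theorem hLoc_of_isU (ϖ : A₀) (m : ℕ) (C : Subalgebra A₀ F₀) [IsFractionRing ↥C F₀]
    [IsNoetherianRing ↥C] [IsIntegrallyClosed ↥C] (x : Ideal ↥C)
    (hπ0 : algebraMap A₀ ↥C ϖ ≠ 0) (u f : F₀) (hu : u ≠ 0) (hf0 : f ≠ 0)
    (hf : ∀ V ∈ heightOneVals F₀ x, ((algebraMap A₀ ↥C ϖ : ↥C) : F₀)⁻¹ ∈ V →
      IsU V (u / f ^ m)) :
    HLoc ϖ m C x u := by
  refine ⟨f, hf0, fun P hP hPx hπP => ?_⟩
  have : P.IsPrime := hP
  have hfm : f ^ m ≠ 0 := pow_ne_zero m hf0
  have hy0 : u / f ^ m ≠ 0 := div_ne_zero hu hfm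
  have hU : ∀ V ∈ heightOneVals F₀ P, IsU V (u / f ^ m) := by
    rintro V ⟨Q, hQ, hht, hQP, hQV⟩
    have hπQ : algebraMap A₀ ↥C ϖ ∉ Q := fun h => hπP (hQP h)
    exact hf V ⟨Q, hQ, hht, hQP.trans hPx, hQV⟩ ((hQV.inv_mem_iff hπ0).mpr hπQ)
  obtain ⟨a, b, hb, hab⟩ := krull_at P (u / f ^ m) fun V hV => (hU V hV).1
  obtain ⟨a', b', hb', hab'⟩ := krull_at P (u / f ^ m)⁻¹ fun V hV => (hU V hV).2
  have hab1 : u / f ^ m * (b : F₀) = (a : F₀) := hab
  have hab1' : (u / f ^ m)⁻¹ * (b' : F₀) = (a' : F₀) := hab'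
  have ha : a ∉ P := by
    intro ha
    have hprod : a * a' = b * b' := by
      apply Subtype.ext
      have e1 : ((a * a' : ↥C) : F₀) = (a : F₀) * (a' : F₀) := rfl
      have e2 : ((b * b' : ↥C) : F₀) = (b : F₀) * (b' : F₀) := rfl
      rw [e1, e2, ← hab1, ← hab1']
      field_simp
    have h1 : b * b' ∈ P := by
      rw [← hprod]
      exact P.mul_mem_right _ ha
    rcases hP.mem_or_mem h1 with h | h
    · exact hb h
    · exact hb' h
  refine ⟨a, b, ha, hb, ?_⟩
  rw [← hab1]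
  field_simp

/-- The trivial case: `u` is a unit at every horizontal height-one local ring at `x`. -/
theorem hLoc_of_forall_isU (ϖ : A₀) (m : ℕ) (C : Subalgebra A₀ F₀) [IsFractionRing ↥C F₀]
    [IsNoetherianRing ↥C] [IsIntegrallyClosed ↥C] (x : Ideal ↥C)
    (hπ0 : algebraMap A₀ ↥C ϖ ≠ 0) (u : F₀) (hu : u ≠ 0)
    (hf : ∀ V ∈ heightOneVals F₀ x, ((algebraMap A₀ ↥C ϖ : ↥C) : F₀)⁻¹ ∈ V → IsU V u) :
    HLoc ϖ m C x u :=
  hLoc_of_isU ϖ m C x hπ0 u 1 hu one_ne_zero fun V hV hh => by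
    rw [one_pow, div_one]
    exact hf V hV hh

/-- **`HLoc` from saturated generators** of the horizontal height-one primes through `x` at
which `u` is not a unit. -/
theorem hLoc_of_sat_gen (ϖ : A₀) (m : ℕ) (C : Subalgebra A₀ F₀) [IsFractionRing ↥C F₀]
    [IsNoetherianRing ↥C] [IsIntegrallyClosed ↥C] (x : Ideal ↥C)
    (hπ0 : algebraMap A₀ ↥C ϖ ≠ 0) (u : F₀) (hu : u ≠ 0)
    (hdiv : ∀ V ∈ heightOneVals F₀ x, ((algebraMap A₀ ↥C ϖ : ↥C) : F₀)⁻¹ ∈ V →
      ∃ t : F₀, t ≠ 0 ∧ IsU V (u / t ^ m))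
    (hgen : ∀ P : Ideal ↥C, P.IsPrime → P.height = 1 → P ≤ x → algebraMap A₀ ↥C ϖ ∉ P →
      (∀ V : ValuationSubring F₀, IsLocAt P V → ¬ IsU V u) →
      ∃ f ∈ P, ∀ y ∈ P, ∃ s : ↥C, s ∉ x ∧ ∃ (n : ℕ) (c : ↥C),
        s * algebraMap A₀ ↥C ϖ ^ n * y = f * c) :
    HLoc ϖ m C x u := by
  obtain ⟨g, hg0, hg⟩ := exists_root_of_local_eqs
    {V | V ∈ heightOneVals F₀ x ∧ ((algebraMap A₀ ↥C ϖ : ↥C) : F₀)⁻¹ ∈ V} m u
    (fun V hV => hdiv V hV.1 hV.2)
    ((finite_not_isU x u hu).subset fun V hV => ⟨hV.1.1, hV.2⟩)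
    (by
      rintro V ⟨⟨P, hP, hht, hPx, hPV⟩, hh⟩ hVu
      have : P.IsPrime := hP
      have hπP : algebraMap A₀ ↥C ϖ ∉ P := (hPV.inv_mem_iff hπ0).mp hh
      obtain ⟨f, hfP, hgenf⟩ := hgen P hP hht hPx hπP (fun V' hV' => by
        rw [← hPV.unique hV']
        exact hVu)
      obtain ⟨hf0, hunif, hother⟩ :=
        local_eq_of_sat_gen x (algebraMap A₀ ↥C ϖ) hπ0 P hht hPx hπP f hfP hgenf V hPV
      exact ⟨(f : F₀), hf0, hunif, fun V' hV' hne => hother V' hV'.1 hV'.2 hne⟩)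
  exact hLoc_of_isU ϖ m C x hπ0 u g hu hg0 fun V hV hh => hg V ⟨hV, hh⟩

/-- **`HLoc` at a point where the chart is locally factorial** (one-component points of the
special fibre, cusps): the divisibility of the orders of `u` suffices. -/
theorem hLoc_of_ufd (ϖ : A₀) (m : ℕ) (C : Subalgebra A₀ F₀) [IsFractionRing ↥C F₀]
    [IsNoetherianRing ↥C] [IsIntegrallyClosed ↥C] (x : Ideal ↥C) [hx : x.IsPrime]
    (hπ0 : algebraMap A₀ ↥C ϖ ≠ 0) (u : F₀) (hu : u ≠ 0)
    (D : Type*) [CommRing D] [IsDomain D] [Algebra ↥C D] [IsLocalization.AtPrime D x]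
    (hufd : UniqueFactorizationMonoid D)
    (hdiv : ∀ V ∈ heightOneVals F₀ x, ((algebraMap A₀ ↥C ϖ : ↥C) : F₀)⁻¹ ∈ V →
      ∃ t : F₀, t ≠ 0 ∧ IsU V (u / t ^ m)) :
    HLoc ϖ m C x u :=
  hLoc_of_sat_gen ϖ m C x hπ0 u hu hdiv fun P hP hht hPx _ _ => by
    have : P.IsPrime := hP
    exact sat_gen_of_ufd x (algebraMap A₀ ↥C ϖ) D hufd P hht hPx

end Fermat.Agent.S34.H7
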