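/-
Program B' (S34), leaf (L4) of the skeleton `Fermat.Agent.S34.H30.Skeleton` (helper7):

  `localAbsStatement : Fermat.Agent.S34.H30.LocalAbsStatement`

Step 1 of the chain in abstract form: on a normal noetherian chart `C` with an automorphism `τ`
trivial modulo `ϖ`, if `u / f ^ m` is a unit at every horizontal prime through the closed point
`x` (`HLoc`), then `τ u / u` is a unit at `x` times the `m`-th power of `τ f / f`.

Proof: `Step1Glue.cartier_of_unit_family` applied to the family of the local rings of `C` at the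
height-one primes contained in `x`, with the suppliers of `Step1Supply` (Krull property at `x`,
permutation of the horizontal valuation rings by `τ`, invariance of the vertical valuations).
-/
import Fermat.Agent.S34.H30.Skeleton
import Fermat.Agent.S34.H7.Step1Supply

set_option autoImplicit false

namespace Fermat.Agent.S34.H7

open Fermat.Agent.S18.H47

/-- **Leaf (L4) of the skeleton of Program B'.** -/
theorem localAbsStatement : Fermat.Agent.S34.H30.LocalAbsStatement := by
  intro A₀ F₀ _ _ _ _ _ _ ϖ hϖ m C O _ _ hfrac hCO hsat τ hτC hτO hτ1 hτϖ hτval x hx hϖx u hu hloc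
  classical
  have hxp : x.IsPrime := hx.isPrime
  have hinjA : Function.Injective (algebraMap A₀ F₀) := FaithfulSMul.algebraMap_injective A₀ F₀
  -- the fraction field
  have hFrac : IsFractionRing ↥C F₀ := by
    refine IsFractionRing.of_field ↥C F₀ fun z => ?_
    obtain ⟨a, ha, b, hb, -, hz⟩ := hfrac z
    exact ⟨⟨a, ha⟩, ⟨b, hb⟩, hz⟩
  -- the uniformiser in `C`
  set π : ↥C := algebraMap A₀ ↥C ϖ with hπdef
  have hπF : (π : F₀) = algebraMap A₀ F₀ ϖ := rfl
  have hπ0 : π ≠ 0 := by
    intro h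
    have h1 : (π : F₀) = 0 := by rw [h]; rfl
    rw [hπF] at h1
    exact hϖ.ne_zero (hinjA (by rw [h1, map_zero]))
  -- the automorphism of `C`
  have hτC' : ∀ c ∈ C, τ.symm c ∈ C := by
    intro c hc
    rw [← hτC, RingEquiv.apply_symm_apply]
    exact hc
  let σ : ↥C ≃+* ↥C :=
    { toFun := fun c => ⟨τ c, (hτC c).mpr c.2⟩
      invFun := fun c => ⟨τ.symm c, hτC' c c.2⟩
      left_inv := fun c => Subtype.ext (τ.symm_apply_apply c)
      right_inv := fun c => Subtype.ext (τ.apply_symm_apply c)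
      map_mul' := fun a b => Subtype.ext (map_mul τ (a : F₀) (b : F₀))
      map_add' := fun a b => Subtype.ext (map_add τ (a : F₀) (b : F₀)) }
  have hστ : ∀ c : ↥C, τ (algebraMap ↥C F₀ c) = algebraMap ↥C F₀ (σ c) := fun c => rfl
  have hσ1 : ∀ c : ↥C, ∃ d : ↥C, σ c = c + π * d := by
    intro c
    obtain ⟨d, hdO, hd⟩ := hτ1 (c : F₀) (hCO c.2)
    have hdC : d ∈ C := hsat d hdO (by
      rw [← hd]
      exact C.sub_mem ((hτC c).mpr c.2) c.2)
    refine ⟨⟨d, hdC⟩, Subtype.ext ?_⟩
    show τ (c : F₀) = (c : F₀) + (π : F₀) * d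
    rw [hπF, ← Algebra.smul_def, ← hd]
    ring
  have hσπ : ∃ ε : ↥C, π = σ π * ε := by
    obtain ⟨e, he⟩ := hτϖ
    refine ⟨algebraMap A₀ ↥C ((e⁻¹ : A₀ˣ) : A₀), Subtype.ext ?_⟩
    show (π : F₀) = τ (π : F₀) * algebraMap A₀ F₀ ((e⁻¹ : A₀ˣ) : A₀)
    rw [hπF, he, ← map_mul]
    congr 1
    rw [mul_comm (e : A₀) ϖ, mul_assoc, Units.mul_inv, mul_one]
  obtain ⟨f, hf0, hf⟩ := hloc
  obtain ⟨a, b, ha, hb, hab⟩ := cartier_of_unit_family C x hxp (π : F₀) (heightOneVals F₀ x)
    (fun y h => by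
      obtain ⟨a, b, hb, hab⟩ := krull_at x y h
      exact ⟨a, b, hb, hab⟩) τ
    (fun V hV hh => comap_mem_heightOneVals x π hπ0 hϖx τ σ hστ hσ1 hσπ V hV hh)
    (fun V hV hh y hy => isU_map_div_self_of_vertical x π hπ0 τ σ hστ hσ1 V hV hh y hy)
    m u f hu hf0
    (by
      rintro V ⟨P, hP, hht, hPx, hPV⟩ hh
      have hπP : π ∉ P := (hPV.inv_mem_iff hπ0).mp hh
      obtain ⟨a, b, ha, hb, hab⟩ := hf P hP hPx hπP
      have hb0 : (b : F₀) ≠ 0 := by
        intro h0
        apply hb
        have : b = 0 := Subtype.ext h0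
        rw [this]
        exact P.zero_mem
      have e : u / f ^ m = algebraMap ↥C F₀ a / algebraMap ↥C F₀ b := by
        have hfm : f ^ m ≠ 0 := pow_ne_zero m hf0
        have e1 : algebraMap ↥C F₀ a = (a : F₀) := rfl
        have e2 : algebraMap ↥C F₀ b = (b : F₀) := rfl
        rw [e1, e2, div_eq_div_iff hfm hb0, hab]
      rw [e]
      exact (hPV.isU_of_notMem ha).div (hPV.isU_of_notMem hb))
  exact ⟨τ f / f, div_ne_zero ((map_ne_zero τ).mpr hf0) hf0, a, b, ha, hb, hab⟩

end Fermat.Agent.S34.H7
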