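/-
Program B' (S34), abstract half of the leaf (BASE) (`S34/H92/BaseDefs.lean`) — helper7.

Totally ramified extensions in valuation-subring language (Mathlib + `H7.Step1Glue` only).

`A` a valuation subring of a field `L`, `E ≤ K` subfields of `L`, `ϖ ∈ E`, `π ∈ K`, `e > 0` with

* `unram`  : `ϖ` generates the maximal ideal of `A ∩ E`;
* `scale`  : the value group of `A ∩ K` is generated by the value of `π`;
* `π ^ e = ϖ * unit`;
* `hdim`   : `K` is spanned over `E` by `e` elements.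

Then `1, π, …, π ^ (e - 1)` is an `E`-basis of `K` (`totRam_basis`, `totRam_indep`), the
coordinates of an element of `A` lie in `A` (`totRam_integral`), and `π` is a root of an
Eisenstein polynomial of degree `e` over `A ∩ E` (`totRam_eisenstein`).  `totRam` collects the
four statements in the field-by-field shape of `H92.InertiaBase`.
-/
import Mathlib
import Fermat.Agent.S34.H7.Step1Glue

set_option autoImplicit false
set_option linter.unusedSectionVars false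

open Polynomial

noncomputable section

namespace Fermat.Agent.S34.H7

section Dom

variable {L : Type*} [Field L] {Γ₀ : Type*} [LinearOrderedCommGroupWithZero Γ₀]

/-- A finite sum whose nonzero terms have pairwise distinct valuations: every term is dominated
by the sum, and the valuation of the sum is the valuation of one of the terms. -/
theorem val_sum_of_distinct {ι : Type*} [DecidableEq ι] (v : Valuation L Γ₀) (x : ι → L)
    (s : Finset ι)
    (hd : ∀ i ∈ s, ∀ j ∈ s, i ≠ j → x i ≠ 0 → v (x i) ≠ v (x j)) :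
    (∀ i ∈ s, v (x i) ≤ v (∑ j ∈ s, x j)) ∧
      (s.Nonempty → ∃ j ∈ s, v (∑ i ∈ s, x i) = v (x j)) := by
  induction s using Finset.induction_on with
  | empty =>
    exact ⟨fun i hi => absurd hi (Finset.notMem_empty i),
      fun h => absurd h Finset.not_nonempty_empty⟩
  | insert a t hat ih =>
    have ih' := ih (fun i hi j hj =>
      hd i (Finset.mem_insert_of_mem hi) j (Finset.mem_insert_of_mem hj))
    rw [Finset.sum_insert hat]
    rcases t.eq_empty_or_nonempty with ht | ht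
    · subst ht
      simp only [Finset.sum_empty, add_zero]
      refine ⟨fun i hi => ?_, fun _ => ⟨a, Finset.mem_insert_self a _, rfl⟩⟩
      rcases Finset.mem_insert.1 hi with rfl | hi
      · exact le_rfl
      · exact absurd hi (Finset.notMem_empty i)
    · obtain ⟨j0, hj0, hj0v⟩ := ih'.2 ht
      by_cases hxa : x a = 0
      · rw [hxa, zero_add]
        refine ⟨fun i hi => ?_, fun _ => ⟨j0, Finset.mem_insert_of_mem hj0, hj0v⟩⟩
        rcases Finset.mem_insert.1 hi with rfl | hi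
        · rw [hxa, map_zero]
          exact zero_le
        · exact ih'.1 i hi
      · have hne : v (x a) ≠ v (∑ j ∈ t, x j) := by
          rw [hj0v]
          exact hd a (Finset.mem_insert_self a t) j0 (Finset.mem_insert_of_mem hj0)
            (fun h => hat (h ▸ hj0)) hxa
        rw [Valuation.map_add_of_distinct_val v hne]
        refine ⟨fun i hi => ?_, fun _ => ?_⟩
        · rcases Finset.mem_insert.1 hi with rfl | hi
          · exact le_max_left _ _
          · exact (ih'.1 i hi).trans (le_max_right _ _)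
        · rcases max_cases (v (x a)) (v (∑ j ∈ t, x j)) with ⟨h, _⟩ | ⟨h, _⟩
          · exact ⟨a, Finset.mem_insert_self a t, h⟩
          · exact ⟨j0, Finset.mem_insert_of_mem hj0, h.trans hj0v⟩

end Dom

section TotRam

variable {L : Type*} [Field L] (A : ValuationSubring L) (E K : Subfield L) (ϖ π : L) (e : ℕ)

/-- The value of an element with a `scale` certificate. -/
theorem val_eq_zpow_of_scale {A : ValuationSubring L} {π : L} (hπ0 : π ≠ 0) {y : L} {n : ℤ}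
    (h₁ : y / π ^ n ∈ A) (h₂ : π ^ n / y ∈ A) (hy : y ≠ 0) :
    A.valuation y = A.valuation π ^ n := by
  have hγ0 : 0 < A.valuation π := zero_lt_iff.2 ((Valuation.ne_zero_iff _).2 hπ0)
  have hγn : 0 < A.valuation π ^ n := zpow_pos hγ0 n
  have hy0 : 0 < A.valuation y := zero_lt_iff.2 ((Valuation.ne_zero_iff _).2 hy)
  rw [← A.valuation_le_one_iff, map_div₀, map_zpow₀] at h₁ h₂
  exact le_antisymm ((div_le_one₀ hγn).1 h₁) ((div_le_one₀ hy0).1 h₂)

/-- `v(ϖ) = v(π) ^ e`. -/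
theorem val_unif_eq_pow {A : ValuationSubring L} {ϖ π : L} {e : ℕ} (hϖ0 : ϖ ≠ 0) (hπ0 : π ≠ 0)
    (pow_div : π ^ e / ϖ ∈ A) (div_pow : ϖ / π ^ e ∈ A) :
    A.valuation ϖ = A.valuation π ^ (e : ℤ) := by
  have h := val_eq_zpow_of_scale (A := A) (π := π) hπ0 (y := ϖ) (n := (e : ℤ))
    (by rw [zpow_natCast]; exact div_pow) (by rw [zpow_natCast]; exact pow_div) hϖ0
  exact h

/-- The value of a nonzero element of `E` is an `e`-th power of a power of the value of `π`. -/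
theorem exists_val_eq_zpow_mul (he : 0 < e) (hEK : E ≤ K) (hϖE : ϖ ∈ E) (hϖ0 : ϖ ≠ 0)
    (hπ0 : π ≠ 0) (hπ : π ∈ A.nonunits)
    (unram : ∀ a ∈ E, a ∈ A.nonunits → a / ϖ ∈ A)
    (scale : ∀ y ∈ K, y ≠ 0 → ∃ n : ℤ, y / π ^ n ∈ A ∧ π ^ n / y ∈ A)
    (pow_div : π ^ e / ϖ ∈ A) (div_pow : ϖ / π ^ e ∈ A)
    {c : L} (hc : c ∈ E) (hc0 : c ≠ 0) :
    ∃ k : ℤ, A.valuation c = A.valuation π ^ ((e : ℤ) * k) := by
  have hγ0 : 0 < A.valuation π := zero_lt_iff.2 ((Valuation.ne_zero_iff _).2 hπ0)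
  have hγ1 : A.valuation π < 1 := A.mem_nonunits_iff.1 hπ
  have hvϖ := val_unif_eq_pow hϖ0 hπ0 pow_div div_pow
  obtain ⟨n, hn₁, hn₂⟩ := scale c (hEK hc) hc0
  have hvc := val_eq_zpow_of_scale hπ0 hn₁ hn₂ hc0
  have heZ : (0 : ℤ) < (e : ℤ) := by exact_mod_cast he
  have hr0 : 0 ≤ n % (e : ℤ) := Int.emod_nonneg n heZ.ne'
  have hre : n % (e : ℤ) < (e : ℤ) := Int.emod_lt_of_pos n heZ
  have hn : n = (e : ℤ) * (n / (e : ℤ)) + n % (e : ℤ) := (Int.mul_ediv_add_emod n e).symm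
  refine ⟨n / (e : ℤ), ?_⟩
  rcases hr0.eq_or_lt with hr | hr
  · rw [hvc]
    congr 1
    omega
  · exfalso
    -- the element `c / ϖ ^ (n / e)` of `E` has value `v(π) ^ (n % e)`
    have hc'E : c / ϖ ^ (n / (e : ℤ)) ∈ E := E.div_mem hc (E.zpow_mem hϖE _)
    have hvc' : A.valuation (c / ϖ ^ (n / (e : ℤ))) = A.valuation π ^ (n % (e : ℤ)) := by
      rw [map_div₀, map_zpow₀, hvc, hvϖ, ← zpow_mul, ← zpow_sub₀ hγ0.ne']
      congr 1
      omega
    have hlt : A.valuation (c / ϖ ^ (n / (e : ℤ))) < 1 := by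
      rw [hvc']
      have := (zpow_lt_zpow_iff_right_of_lt_one₀ hγ0 hγ1 (m := n % (e : ℤ)) (n := 0)).2 hr
      simpa using this
    have h1 := unram _ hc'E (A.mem_nonunits_iff.2 hlt)
    rw [← A.valuation_le_one_iff, map_div₀, hvc', hvϖ,
      div_le_one₀ (zpow_pos hγ0 _), zpow_le_zpow_iff_right_of_lt_one₀ hγ0 hγ1] at h1
    omega

variable {A E K ϖ π e}

/-- The terms `c i * π ^ i` with `c i ∈ E` nonzero have pairwise distinct valuations. -/
theorem totRam_distinct (he : 0 < e) (hEK : E ≤ K) (hϖE : ϖ ∈ E) (hϖ0 : ϖ ≠ 0)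
    (hπ0 : π ≠ 0) (hπ : π ∈ A.nonunits)
    (unram : ∀ a ∈ E, a ∈ A.nonunits → a / ϖ ∈ A)
    (scale : ∀ y ∈ K, y ≠ 0 → ∃ n : ℤ, y / π ^ n ∈ A ∧ π ^ n / y ∈ A)
    (pow_div : π ^ e / ϖ ∈ A) (div_pow : ϖ / π ^ e ∈ A)
    (c : Fin e → L) (hc : ∀ i, c i ∈ E) (i j : Fin e) (hij : i ≠ j)
    (hi : c i * π ^ (i : ℕ) ≠ 0) :
    A.valuation (c i * π ^ (i : ℕ)) ≠ A.valuation (c j * π ^ (j : ℕ)) := by
  have hγ0 : 0 < A.valuation π := zero_lt_iff.2 ((Valuation.ne_zero_iff _).2 hπ0)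
  have hγ1 : A.valuation π < 1 := A.mem_nonunits_iff.1 hπ
  have hci : c i ≠ 0 := left_ne_zero_of_mul hi
  by_cases hcj : c j = 0
  · rw [hcj, zero_mul, map_zero]
    exact (Valuation.ne_zero_iff _).2 hi
  · obtain ⟨ki, hki⟩ := exists_val_eq_zpow_mul A E K ϖ π e he hEK hϖE hϖ0 hπ0 hπ unram scale
      pow_div div_pow (hc i) hci
    obtain ⟨kj, hkj⟩ := exists_val_eq_zpow_mul A E K ϖ π e he hEK hϖE hϖ0 hπ0 hπ unram scale
      pow_div div_pow (hc j) hcj
    rw [map_mul, map_mul, map_pow, map_pow, hki, hkj, ← zpow_natCast, ← zpow_natCast,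
      ← zpow_add₀ hγ0.ne', ← zpow_add₀ hγ0.ne']
    intro h
    have h2 : (e : ℤ) * ki + ((i : ℕ) : ℤ) = (e : ℤ) * kj + ((j : ℕ) : ℤ) :=
      zpow_right_injective₀ hγ0 hγ1.ne h
    have hi' : ((i : ℕ) : ℤ) < (e : ℤ) := by exact_mod_cast i.2
    have hj' : ((j : ℕ) : ℤ) < (e : ℤ) := by exact_mod_cast j.2
    have h3 : ((i : ℕ) : ℤ) = ((j : ℕ) : ℤ) := by
      have h4 := congrArg (· % (e : ℤ)) h2
      simp only [Int.mul_add_emod_self_left] at h4
      rwa [Int.emod_eq_of_lt (by positivity) hi', Int.emod_eq_of_lt (by positivity) hj'] at h4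
    exact hij (Fin.ext (by exact_mod_cast h3))

/-- **Independence**: `1, π, …, π ^ (e - 1)` are linearly independent over `E`. -/
theorem totRam_indep (he : 0 < e) (hEK : E ≤ K) (hϖE : ϖ ∈ E) (hϖ0 : ϖ ≠ 0)
    (hπ0 : π ≠ 0) (hπ : π ∈ A.nonunits)
    (unram : ∀ a ∈ E, a ∈ A.nonunits → a / ϖ ∈ A)
    (scale : ∀ y ∈ K, y ≠ 0 → ∃ n : ℤ, y / π ^ n ∈ A ∧ π ^ n / y ∈ A)
    (pow_div : π ^ e / ϖ ∈ A) (div_pow : ϖ / π ^ e ∈ A)
    (c : Fin e → L) (hc : ∀ i, c i ∈ E) (h0 : (∑ i, c i * π ^ (i : ℕ)) = 0) (i : Fin e) :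
    c i = 0 := by
  classical
  have hd := val_sum_of_distinct A.valuation (fun i : Fin e => c i * π ^ (i : ℕ)) Finset.univ
    (fun i _ j _ hij hi => totRam_distinct he hEK hϖE hϖ0 hπ0 hπ unram scale pow_div div_pow
      c hc i j hij hi)
  have h1 := hd.1 i (Finset.mem_univ i)
  rw [h0, map_zero] at h1
  have h2 : c i * π ^ (i : ℕ) = 0 := (Valuation.zero_iff _).1 (le_antisymm h1 zero_le)
  rcases mul_eq_zero.1 h2 with h | h
  · exact h
  · exact absurd h (pow_ne_zero _ hπ0)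

/-- **Integrality**: the coordinates of an element of `A` in the basis `1, π, …, π ^ (e - 1)`
lie in `A`. -/
theorem totRam_integral (he : 0 < e) (hEK : E ≤ K) (hϖE : ϖ ∈ E) (hϖ0 : ϖ ≠ 0)
    (hπ0 : π ≠ 0) (hπ : π ∈ A.nonunits)
    (unram : ∀ a ∈ E, a ∈ A.nonunits → a / ϖ ∈ A)
    (scale : ∀ y ∈ K, y ≠ 0 → ∃ n : ℤ, y / π ^ n ∈ A ∧ π ^ n / y ∈ A)
    (pow_div : π ^ e / ϖ ∈ A) (div_pow : ϖ / π ^ e ∈ A)
    (c : Fin e → L) (hc : ∀ i, c i ∈ E) (hA : (∑ i, c i * π ^ (i : ℕ)) ∈ A) (i : Fin e) :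
    c i ∈ A := by
  classical
  have hγ0 : 0 < A.valuation π := zero_lt_iff.2 ((Valuation.ne_zero_iff _).2 hπ0)
  have hγ1 : A.valuation π < 1 := A.mem_nonunits_iff.1 hπ
  have hd := val_sum_of_distinct A.valuation (fun i : Fin e => c i * π ^ (i : ℕ)) Finset.univ
    (fun i _ j _ hij hi => totRam_distinct he hEK hϖE hϖ0 hπ0 hπ unram scale pow_div div_pow
      c hc i j hij hi)
  have h1 := (hd.1 i (Finset.mem_univ i)).trans ((A.valuation_le_one_iff _).2 hA)
  by_cases hci : c i = 0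
  · rw [hci]
    exact A.zero_mem
  · obtain ⟨k, hk⟩ := exists_val_eq_zpow_mul A E K ϖ π e he hEK hϖE hϖ0 hπ0 hπ unram scale
      pow_div div_pow (hc i) hci
    rw [map_mul, map_pow, hk, ← zpow_natCast, ← zpow_add₀ hγ0.ne',
      zpow_le_one_iff_right_of_lt_one₀ hγ0 hγ1] at h1
    have hi' : ((i : ℕ) : ℤ) < (e : ℤ) := by exact_mod_cast i.2
    have heZ : (0 : ℤ) < (e : ℤ) := by exact_mod_cast he
    have hk0 : 0 ≤ k := by
      by_contra hneg
      have h2 : (e : ℤ) * k ≤ (e : ℤ) * (-1) :=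
        mul_le_mul_of_nonneg_left (by omega) heZ.le
      omega
    rw [← A.valuation_le_one_iff, hk, zpow_le_one_iff_right_of_lt_one₀ hγ0 hγ1]
    exact mul_nonneg heZ.le hk0

/-- **Spanning**: `1, π, …, π ^ (e - 1)` span `K` over `E`, if they are independent and `K` is
spanned by `e` elements. -/
theorem totRam_basis (hπK : π ∈ K)
    (hindep : ∀ c : Fin e → L, (∀ i, c i ∈ E) → (∑ i, c i * π ^ (i : ℕ)) = 0 → ∀ i, c i = 0)
    (hdim : ∃ b : Fin e → L, ∀ y ∈ K, ∃ c : Fin e → L, (∀ i, c i ∈ E) ∧ y = ∑ i, c i * b i)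
    (y : L) (hy : y ∈ K) :
    ∃ c : Fin e → L, (∀ i, c i ∈ E) ∧ y = ∑ i, c i * π ^ (i : ℕ) := by
  obtain ⟨b, hb⟩ := hdim
  let p : Fin e → L := fun i => π ^ (i : ℕ)
  have hli : LinearIndependent ↥E p := by
    rw [Fintype.linearIndependent_iff]
    intro g hg i
    have h1 := hindep (fun i => (g i : L)) (fun i => (g i).2) hg i
    exact Subtype.ext h1
  let M : Submodule ↥E L := Submodule.span ↥E (Set.range b)
  have hKM : ∀ y ∈ K, y ∈ M := by
    intro y hy
    obtain ⟨c, hc, rfl⟩ := hb y hy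
    refine Submodule.sum_mem _ (fun i _ => ?_)
    have h1 : c i * b i = (⟨c i, hc i⟩ : ↥E) • b i := rfl
    rw [h1]
    exact Submodule.smul_mem _ _ (Submodule.subset_span ⟨i, rfl⟩)
  have hle : Submodule.span ↥E (Set.range p) ≤ M :=
    Submodule.span_le.2 (by rintro _ ⟨i, rfl⟩; exact hKM _ (K.pow_mem hπK _))
  have hfin : Module.finrank ↥E M ≤ e := by
    have h1 := finrank_range_le_card (R := ↥E) b
    rw [Fintype.card_fin] at h1
    exact h1
  have hrank : Module.finrank ↥E (Submodule.span ↥E (Set.range p)) = e := by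
    rw [finrank_span_eq_card hli]
    simp
  have : Module.Finite ↥E M := FiniteDimensional.span_of_finite _ (Set.finite_range b)
  have heq : Submodule.span ↥E (Set.range p) = M :=
    Submodule.eq_of_le_of_finrank_le hle (by rw [hrank]; exact hfin)
  have hy' : y ∈ Submodule.span ↥E (Set.range p) := by
    rw [heq]
    exact hKM y hy
  obtain ⟨g, hg⟩ := (Submodule.mem_span_range_iff_exists_fun ↥E).1 hy'
  exact ⟨fun i => (g i : L), fun i => (g i).2, hg.symm⟩

/-- The coefficients of `X ^ e - ∑ i, c i X ^ i`. -/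
theorem coeff_X_pow_sub_sum (c : Fin e → L) (n : ℕ) :
    (X ^ e - ∑ i : Fin e, C (c i) * X ^ (i : ℕ) : L[X]).coeff n =
      if h : n < e then - c ⟨n, h⟩ else if n = e then 1 else 0 := by
  rw [coeff_sub, coeff_X_pow, finsetSum_coeff]
  simp only [coeff_C_mul_X_pow]
  by_cases h : n < e
  · rw [dif_pos h, if_neg h.ne, zero_sub]
    congr 1
    rw [Finset.sum_eq_single (⟨n, h⟩ : Fin e)]
    · simp
    · intro i _ hi
      rw [if_neg]
      intro h2
      exact hi (Fin.ext h2.symm)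
    · intro h2
      exact absurd (Finset.mem_univ _) h2
  · rw [dif_neg h]
    have h0 : (∑ i : Fin e, if n = (i : ℕ) then c i else 0) = 0 := by
      refine Finset.sum_eq_zero (fun i _ => ?_)
      rw [if_neg]
      intro h2
      exact h (h2 ▸ i.2)
    rw [h0, sub_zero]

/-- **Eisenstein**: `π` is a root of an Eisenstein polynomial of degree `e` over `A ∩ E`. -/
theorem totRam_eisenstein (he : 0 < e) (hEK : E ≤ K) (hϖE : ϖ ∈ E) (hϖ0 : ϖ ≠ 0)
    (hπK : π ∈ K) (hπ0 : π ≠ 0) (hπ : π ∈ A.nonunits)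
    (unram : ∀ a ∈ E, a ∈ A.nonunits → a / ϖ ∈ A)
    (scale : ∀ y ∈ K, y ≠ 0 → ∃ n : ℤ, y / π ^ n ∈ A ∧ π ^ n / y ∈ A)
    (pow_div : π ^ e / ϖ ∈ A) (div_pow : ϖ / π ^ e ∈ A)
    (hbasis : ∀ y ∈ K, ∃ c : Fin e → L, (∀ i, c i ∈ E) ∧ y = ∑ i, c i * π ^ (i : ℕ)) :
    ∃ g : L[X], g.Monic ∧ g.natDegree = e ∧ g.eval π = 0 ∧
      (∀ n, g.coeff n ∈ E ∧ g.coeff n ∈ A) ∧ (∀ n < e, g.coeff n / ϖ ∈ A) ∧
      ϖ / g.coeff 0 ∈ A := by
  classical
  have hγ0 : 0 < A.valuation π := zero_lt_iff.2 ((Valuation.ne_zero_iff _).2 hπ0)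
  have hγ1 : A.valuation π < 1 := A.mem_nonunits_iff.1 hπ
  have hvϖ := val_unif_eq_pow hϖ0 hπ0 pow_div div_pow
  have heZ : (0 : ℤ) < (e : ℤ) := by exact_mod_cast he
  obtain ⟨c, hcE, hc⟩ := hbasis (π ^ e) (K.pow_mem hπK e)
  have hπA : π ∈ A := A.nonunits_le hπ
  have hcA : ∀ i, c i ∈ A := totRam_integral he hEK hϖE hϖ0 hπ0 hπ unram scale pow_div div_pow
    c hcE (by rw [← hc]; exact A.pow_mem hπA e)
  have hd := val_sum_of_distinct A.valuation (fun i : Fin e => c i * π ^ (i : ℕ)) Finset.univ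
    (fun i _ j _ hij hi => totRam_distinct he hEK hϖE hϖ0 hπ0 hπ unram scale pow_div div_pow
      c hcE i j hij hi)
  rw [← hc] at hd
  have hvπe : A.valuation (π ^ e) = A.valuation π ^ (e : ℤ) := by
    rw [map_pow, zpow_natCast]
  -- every coefficient is divisible by `ϖ`
  have hlow : ∀ i : Fin e, c i / ϖ ∈ A := by
    intro i
    by_cases hci : c i = 0
    · rw [hci, zero_div]
      exact A.zero_mem
    · obtain ⟨k, hk⟩ := exists_val_eq_zpow_mul A E K ϖ π e he hEK hϖE hϖ0 hπ0 hπ unram scale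
        pow_div div_pow (hcE i) hci
      have h1 := hd.1 i (Finset.mem_univ i)
      rw [hvπe, map_mul, map_pow, hk, ← zpow_natCast, ← zpow_add₀ hγ0.ne',
        zpow_le_zpow_iff_right_of_lt_one₀ hγ0 hγ1] at h1
      have hi' : ((i : ℕ) : ℤ) < (e : ℤ) := by exact_mod_cast i.2
      have hk1 : 1 ≤ k := by
        by_contra hneg
        have h2 : (e : ℤ) * k ≤ (e : ℤ) * 0 := mul_le_mul_of_nonneg_left (by omega) heZ.le
        omega
      rw [← A.valuation_le_one_iff, map_div₀, hk, hvϖ, div_le_one₀ (zpow_pos hγ0 _),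
        zpow_le_zpow_iff_right_of_lt_one₀ hγ0 hγ1]
      nlinarith
  -- the constant coefficient is `ϖ` times a unit
  have hzero : ϖ / (- c ⟨0, he⟩) ∈ A := by
    obtain ⟨j, -, hj⟩ := hd.2 ⟨⟨0, he⟩, Finset.mem_univ _⟩
    have hcj : c j ≠ 0 := by
      intro h0
      rw [h0, zero_mul, map_zero, hvπe] at hj
      exact (zpow_pos hγ0 _).ne' hj
    obtain ⟨k, hk⟩ := exists_val_eq_zpow_mul A E K ϖ π e he hEK hϖE hϖ0 hπ0 hπ unram scale
      pow_div div_pow (hcE j) hcj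
    rw [hvπe, map_mul, map_pow, hk, ← zpow_natCast, ← zpow_add₀ hγ0.ne'] at hj
    have h2 : (e : ℤ) = (e : ℤ) * k + ((j : ℕ) : ℤ) := zpow_right_injective₀ hγ0 hγ1.ne hj
    have hj' : ((j : ℕ) : ℤ) < (e : ℤ) := by exact_mod_cast j.2
    have hj0 : ((j : ℕ) : ℤ) = 0 := by
      have h4 := congrArg (· % (e : ℤ)) h2
      simp only [Int.mul_add_emod_self_left, Int.emod_self] at h4
      rw [Int.emod_eq_of_lt (by positivity) hj'] at h4
      exact h4.symm
    have hj00 : j = ⟨0, he⟩ := Fin.ext (by exact_mod_cast hj0)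
    have hk1 : k = 1 := by
      rw [hj0, add_zero] at h2
      have h5 : (e : ℤ) * 1 = (e : ℤ) * k := by rw [mul_one]; exact h2
      exact (mul_left_cancel₀ heZ.ne' h5).symm
    rw [hj00] at hk
    rw [← A.valuation_le_one_iff, map_div₀, Valuation.map_neg, hk, hvϖ, hk1, mul_one,
      div_self (zpow_pos hγ0 _).ne']
  refine ⟨X ^ e - ∑ i : Fin e, C (c i) * X ^ (i : ℕ), monic_X_pow_sub (degree_sum_fin_lt c), ?_,
    ?_, ?_, ?_, ?_⟩
  · have h1 : (X ^ e - ∑ i : Fin e, C (c i) * X ^ (i : ℕ) : L[X]).degree = (e : WithBot ℕ) := by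
      rw [degree_sub_eq_left_of_degree_lt (by rw [degree_X_pow]; exact degree_sum_fin_lt c),
        degree_X_pow]
    exact natDegree_eq_of_degree_eq_some h1
  · rw [eval_sub, eval_pow, eval_X, eval_finsetSum, hc, sub_eq_zero]
    refine Finset.sum_congr rfl (fun i _ => ?_)
    rw [eval_mul, eval_C, eval_pow, eval_X]
  · intro n
    rw [coeff_X_pow_sub_sum]
    split_ifs with h1 h2
    · exact ⟨E.neg_mem (hcE _), A.neg_mem _ (hcA _)⟩
    · exact ⟨E.one_mem, A.one_mem⟩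
    · exact ⟨E.zero_mem, A.zero_mem⟩
  · intro n hn
    rw [coeff_X_pow_sub_sum, dif_pos hn, neg_div]
    exact A.neg_mem _ (hlow _)
  · rw [coeff_X_pow_sub_sum, dif_pos he]
    exact hzero

/-- **Totally ramified extensions**, in the field-by-field shape of `H92.InertiaBase`
(`basis`, `integral`, `indep`, and the Eisenstein polynomial `g_monic`, `g_deg`, `g_root`,
`g_coeff`, `g_low`, `g_zero`). -/
theorem totRam (A : ValuationSubring L) (E K : Subfield L) (hEK : E ≤ K) (ϖ π : L) (e : ℕ)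
    (he : 0 < e) (hϖE : ϖ ∈ E) (hϖ0 : ϖ ≠ 0) (hπK : π ∈ K) (hπ0 : π ≠ 0)
    (hπ : π ∈ A.nonunits)
    (unram : ∀ a ∈ E, a ∈ A.nonunits → a / ϖ ∈ A)
    (scale : ∀ y ∈ K, y ≠ 0 → ∃ n : ℤ, y / π ^ n ∈ A ∧ π ^ n / y ∈ A)
    (pow_div : π ^ e / ϖ ∈ A) (div_pow : ϖ / π ^ e ∈ A)
    (hdim : ∃ b : Fin e → L, ∀ y ∈ K, ∃ c : Fin e → L, (∀ i, c i ∈ E) ∧ y = ∑ i, c i * b i) :
    (∀ y ∈ K, ∃ c : Fin e → L, (∀ i, c i ∈ E) ∧ y = ∑ i, c i * π ^ (i : ℕ)) ∧
    (∀ c : Fin e → L, (∀ i, c i ∈ E) → (∑ i, c i * π ^ (i : ℕ)) ∈ A → ∀ i, c i ∈ A) ∧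
    (∀ c : Fin e → L, (∀ i, c i ∈ E) → (∑ i, c i * π ^ (i : ℕ)) = 0 → ∀ i, c i = 0) ∧
    ∃ g : L[X], g.Monic ∧ g.natDegree = e ∧ g.eval π = 0 ∧
      (∀ n, g.coeff n ∈ E ∧ g.coeff n ∈ A) ∧ (∀ n < e, g.coeff n / ϖ ∈ A) ∧
      ϖ / g.coeff 0 ∈ A := by
  have hindep : ∀ c : Fin e → L, (∀ i, c i ∈ E) → (∑ i, c i * π ^ (i : ℕ)) = 0 → ∀ i, c i = 0 :=
    fun c hc h0 i => totRam_indep he hEK hϖE hϖ0 hπ0 hπ unram scale pow_div div_pow c hc h0 i
  have hbasis : ∀ y ∈ K, ∃ c : Fin e → L, (∀ i, c i ∈ E) ∧ y = ∑ i, c i * π ^ (i : ℕ) :=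
    fun y hy => totRam_basis hπK hindep hdim y hy
  exact ⟨hbasis,
    fun c hc hA i => totRam_integral he hEK hϖE hϖ0 hπ0 hπ unram scale pow_div div_pow c hc hA i,
    hindep,
    totRam_eisenstein he hEK hϖE hϖ0 hπK hπ0 hπ unram scale pow_div div_pow hbasis⟩

end TotRam

/-! ### Adapters -/

section Adapters

variable {L : Type*} [Field L]

/-- Nonunits of a pulled-back valuation subring. -/
theorem mem_nonunits_comap_iff {K' : Type*} [Field K'] (φ : K' →+* L) (A : ValuationSubring L)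
    (x : K') : x ∈ (A.comap φ).nonunits ↔ φ x ∈ A.nonunits := by
  rw [ValuationSubring.mem_nonunits_iff_or, ValuationSubring.mem_nonunits_iff_or,
    ValuationSubring.mem_comap, map_inv₀, map_eq_zero]

/-- The hypothesis `scale` of `totRam` from discreteness: if the pull-back of `A` to a field
`K'` is a discrete valuation ring whose maximal ideal is generated by `π'`, then every nonzero
element of `K'` is a unit times a power of `π'`. -/
theorem scale_of_isDVR {K' : Type*} [Field K'] (φ : K' →+* L) (A : ValuationSubring L)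
    [IsDiscreteValuationRing ↥(A.comap φ)] (π' : K') (hπ0 : π' ≠ 0) (hπ : φ π' ∈ A.nonunits)
    (hunif : ∀ y : K', φ y ∈ A.nonunits → φ y / φ π' ∈ A) (y : K') (hy : y ≠ 0) :
    ∃ n : ℤ, φ y / φ π' ^ n ∈ A ∧ φ π' ^ n / φ y ∈ A := by
  obtain ⟨n, h₁, h₂⟩ := exists_zpow_isU_of_generator (V := A.comap φ) π' hπ0
    ((mem_nonunits_comap_iff φ A π').2 hπ)
    (fun z hz => by
      rw [ValuationSubring.mem_comap, map_div₀]
      exact hunif z ((mem_nonunits_comap_iff φ A z).1 hz)) y hy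
  refine ⟨n, ?_, ?_⟩
  · rw [ValuationSubring.mem_comap, map_div₀, map_zpow₀] at h₁
    exact h₁
  · rw [ValuationSubring.mem_comap, map_inv₀, map_div₀, map_zpow₀, inv_div] at h₂
    exact h₂

/-- The hypothesis `hdim` of `totRam` from a degree: the image in `L` of a basis. -/
theorem hdim_of_finrank {E' K' : Type*} [Field E'] [Field K'] [Algebra E' K'] (φ : K' →+* L)
    (e : ℕ) (he : 0 < e) (h : Module.finrank E' K' = e) :
    ∃ b : Fin e → L, ∀ y : K', ∃ c : Fin e → E',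
      φ y = ∑ i, φ (algebraMap E' K' (c i)) * b i := by
  have hfin : Module.Finite E' K' := Module.finite_of_finrank_pos (by rw [h]; exact he)
  let B := Module.finBasisOfFinrankEq E' K' h
  refine ⟨fun i => φ (B i), fun y => ⟨fun i => B.repr y i, ?_⟩⟩
  conv_lhs => rw [← B.sum_repr y]
  rw [map_sum]
  refine Finset.sum_congr rfl (fun i _ => ?_)
  rw [Algebra.smul_def, map_mul]

end Adapters

end Fermat.Agent.S34.H7
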